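import Fermat.Agent.TwoAdic.TSide.BoundPoly
import Fermat.Agent.TwoAdic.Modules.QuotAction
import Fermat.Agent.Engine.Lifting.TwistPair
import Mathlib.Algebra.Module.Torsion.Free

/-!
With trivial character the degree operator `(q + 1) + c T_q` of a face is injective on a free new
quotient: the eigenvalues of `T_q` are smaller than `q + 1`.
-/

set_option autoImplicit false

noncomputable section

open IsLocalRing CongruenceSubgroup Polynomial

namespace Fermat.Agent.TwoAdic

open HeckeJ0 LevelRaising HeckeModule Engine.TRep

attribute [local instance] ALSetup.isPrime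

/-- Integral polynomials in intertwined operators are intertwined. -/
theorem aeval_intertwine {R X Y : Type} [CommRing R] [AddCommGroup X] [Module R X]
    [AddCommGroup Y] [Module R Y] (f : X →ₗ[R] Y) (s : Module.End R X) (t : Module.End R Y)
    (h : ∀ x, f (s x) = t (f x)) (g : ℤ[X]) (x : X) :
    f (aeval s g x) = aeval t g (f x) := by
  induction g using Polynomial.induction_on generalizing x with
  | C n => simp
  | add a b ha hb => simp only [map_add, LinearMap.add_apply, ha, hb]
  | monomial i n hi =>
    rw [pow_succ, ← mul_assoc, map_mul _ (C n * Polynomial.X ^ i),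
      map_mul _ (C n * Polynomial.X ^ i), aeval_X, aeval_X, Module.End.mul_apply,
      Module.End.mul_apply, hi, h]

/-- Integral polynomials at an eigenvector. -/
theorem aeval_eigen {R X : Type} [CommRing R] [AddCommGroup X] [Module R X] (t : Module.End R X)
    {z : X} {n : ℤ} (h : t z = (n : R) • z) (g : ℤ[X]) :
    aeval t g z = ((g.eval n : ℤ) : R) • z := by
  induction g using Polynomial.induction_on with
  | C m => simp [Int.cast_smul_eq_zsmul]
  | add a b ha hb => simp only [map_add, LinearMap.add_apply, ha, hb, eval_add, Int.cast_add,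
      add_smul]
  | monomial i m hi =>
    rw [pow_succ, ← mul_assoc, map_mul _ (C m * Polynomial.X ^ i), aeval_X, Module.End.mul_apply, h,
      map_smul, hi, smul_smul, eval_mul (p := C m * Polynomial.X ^ i), eval_X, Int.cast_mul,
      mul_comm]

namespace ALSetup

variable {O : Type} [CommRing O] [IsDomain O] [IsLocalRing O] [IsNoetherianRing O]
  [IsAdicComplete (maximalIdeal O) O] [CharZero O] (T : ALSetup O) {V : Finset ℕ} {q : ℕ}
  [hq : Fact q.Prime]

/-- **The degree operator is injective.** -/
theorem degQuot_injective (hχ : T.χ = 1) (hV : V ⊆ T.W) (hqW : q ∈ T.W)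
    (hqV : q ∉ V) {B : Finset ℕ} (hBV : B ⊆ V) (hcube : T.CubeInjective hV B) :
    Function.Injective (T.degQuot O hV hqW hqV B) := by
  obtain ⟨_, _⟩ := T.free_newQuot hV hBV hcube
  have : NeZero (T.level V) := ⟨T.level_ne_zero hV⟩
  obtain ⟨r, hr, hrS, hr1, hre⟩ := T.eisenstein
  have := Fact.mk hr
  have hqN : ¬ q ∣ T.level V := T.not_dvd_level hV hqW hqV
  have hrN : ¬ r ∣ T.level V := fun h => by
    have h1 := congrArg (ZMod.castHom (h.trans (T.level_dvd hV)) (ZMod r)) hr1
    rw [map_natCast, map_one, ZMod.natCast_self] at h1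
    exact zero_ne_one h1
  let κ := T.twistConst hqW
  have hκ : κ ^ 2 = 1 := by
    have h1 := T.sq q hqW (T.coprime_M hqW)
    simp only [κ, twistConst, hχ, MonoidHom.one_apply, mul_one] at h1 ⊢
    rw [pow_two, h1]
  obtain ⟨g, hg0, hg⟩ := TSide.exists_poly_sq_levels hq.out (T.level V) ∅
  have hloc : ∀ x : T.H V O, aeval (TSide.scaledSq κ q) g • x = 0 := fun x =>
    TSide.aeval_smul_eq_zero_loc (fun _ => 1) ∅ (fun e he => absurd he (Finset.notMem_empty e))
      hqN (by
        have := congrArg (ZMod.castHom (T.level_dvd hV) (ZMod (T.level V))) hr1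
        rw [map_natCast, map_one] at this
        rw [Finset.prod_empty, mul_one]
        exact this) hrN
      (by
        rw [show charSq (fun _ => 1) ∅ (T.level V) = (1 : (ZMod (T.level V))ˣ →* O) from
          Finset.prod_empty, ALSetup.char, hχ]
        exact MonoidHom.ext fun u => rfl)
      (eisen_mem_awayMonoid hrS hre) (by rw [charProd, Finset.prod_empty, one_pow, mul_one, hκ])
      hg x
  let D := T.degLevelOp O hV hqW hqV
  let s : Module.End O (T.signed O hV) := (D.signedEnd subset_rfl - ((q : O) + 1) • 1) ^ 2
  let t : Module.End O (T.NewQuot O hV B) := (T.degQuot O hV hqW hqV B - ((q : O) + 1) • 1) ^ 2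
  have hst : ∀ x, (T.oldSpace O hV B).mkQ (s x) = t ((T.oldSpace O hV B).mkQ x) := fun x => by
    simp only [s, t, pow_two, Module.End.mul_apply, LinearMap.sub_apply, LinearMap.smul_apply,
      Module.End.one_apply, map_sub, map_smul]
    rfl
  have hsH : ∀ x : T.signed O hV, ((s x : T.signed O hV) : T.H V O) =
      DistribMulAction.toModuleEnd O (T.H V O) (TSide.scaledSq κ q) (x : T.H V O) := fun x => by
    have key : ∀ y : T.signed O hV,
        (((D.signedEnd subset_rfl - ((q : O) + 1) • 1 : Module.End O (T.signed O hV)) y :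
          T.signed O hV) : T.H V O) =
        (MvPolynomial.C κ * MvPolynomial.X (⟨q, hq.out⟩ : Nat.Primes) : HeckePoly O) •
          (y : T.H V O) := fun y => by
      rw [LinearMap.sub_apply, Submodule.coe_sub, LinearMap.smul_apply, Module.End.one_apply,
        Submodule.coe_smul, LevelOp.coe_signedEnd]
      show T.degOp hqW V O (y : T.H V O) - _ = _
      rw [T.degOp_apply, add_sub_cancel_left]
      exact ((mul_smul _ _ (y : T.H V O)).trans (algebraMap_smul (HeckePoly O) κ _)).symm
    show _ = TSide.scaledSq κ q • (x : T.H V O)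
    simp only [s, pow_two, Module.End.mul_apply, key, smul_smul, TSide.scaledSq]
    exact (congrArg (· • (x : T.H V O)) (pow_two _)).symm
  have ht : ∀ z, aeval t g z = 0 := fun z => by
    obtain ⟨x, rfl⟩ := Submodule.mkQ_surjective _ z
    rw [← aeval_intertwine _ s t hst g x]
    have h1 : ((aeval s g x : T.signed O hV) : T.H V O) = 0 := by
      rw [← Submodule.subtype_apply, aeval_intertwine (T.signed O hV).subtype s
        (DistribMulAction.toModuleEnd O (T.H V O) (TSide.scaledSq κ q)) hsH g x]
      have h3 := LinearMap.congr_fun (Polynomial.aeval_algHom_apply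
        (Module.toModuleEnd O (S := HeckePoly O) (T.H V O)).toIntAlgHom (TSide.scaledSq κ q) g)
        (x : T.H V O)
      exact h3.trans (hloc (x : T.H V O))
    rw [show (aeval s g x : T.signed O hV) = 0 from Subtype.ext h1, map_zero]
  rw [injective_iff_map_eq_zero]
  intro z hz
  have h1 : t z = ((((q : ℤ) + 1) ^ 2 : ℤ) : O) • z := by
    simp only [t, pow_two, Module.End.mul_apply, LinearMap.sub_apply, LinearMap.smul_apply,
      Module.End.one_apply, hz, zero_sub, map_neg, map_smul]
    push_cast
    module
  have h2 := aeval_eigen t h1 g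
  rw [ht] at h2
  exact (smul_eq_zero.mp h2.symm).resolve_left (Int.cast_ne_zero.mpr hg0)

end ALSetup

end Fermat.Agent.TwoAdic
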