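import Fermat.Agent.TwoAdic.Descend.NewQuot
import Fermat.Agent.TwoAdic.Descend.DegInjective

/-!
The descent loop: from the auxiliary level `V₀ ∪ A`, all new, down to `V₀`.
-/

set_option autoImplicit false
-- the section variables are kept so that the statements share one signature
set_option linter.unusedSectionVars false

noncomputable section

open IsLocalRing GaloisRep CongruenceSubgroup Fermat.Agent.DefRing Fermat.Agent.Deform

namespace Fermat.Agent.TwoAdic

open HeckeJ0 LevelRaising HeckeModule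

attribute [local instance] ALSetup.isPrime

/-- Faces of an injective cube are injective cubes. -/
theorem ALSetup.CubeInjective.mono {O : Type} [CommRing O] [IsLocalRing O] {T : ALSetup O}
    {V W : Finset ℕ} {hV : V ⊆ T.W} (h : T.CubeInjective hV V) (hWV : W ⊆ V) :
    T.CubeInjective (hWV.trans hV) W :=
  fun U hU B₀ b hb h1 h2 h3 h4 => h U (hU.trans hWV) B₀ b hb h1 (h2.trans hWV) (hWV h3) h4

namespace Descend

open Pair

variable {O : Type} [CommRing O] [IsDomain O] [IsDiscreteValuationRing O] [CharZero O]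
  [IsAdicComplete (maximalIdeal O) O] [Finite (ResidueField O)] [CharP (ResidueField O) 2]
  {D : NormalData O} (E : LiftData) {Q : Finset ℕ} {C : Set (GQ × GQ)}

/-- The auxiliary sets below `E.aux`. -/
abbrev Stage (E : LiftData) : Type := {S : Finset ℕ // S ⊆ E.aux}

/-- The data at a stage. -/
abbrev Stage.data {E : LiftData} (S : Stage E) : LiftData :=
  E.withAux S.1 fun x hx => E.aux_spec x (S.2 hx)

/-- One prime less. -/
abbrev Stage.erase {E : LiftData} (S : Stage E) (q : ℕ) : Stage E :=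
  ⟨S.1.erase q, (S.1.erase_subset q).trans S.2⟩

variable (T : ALSetup O) (V₀ : Finset ℕ)

theorem stage_subset (hV : V₀ ∪ E.aux ⊆ T.W) (S : Stage E) : V₀ ∪ S.1 ⊆ T.W :=
  (Finset.union_subset_union_right S.2).trans hV

theorem insert_union_erase {S : Finset ℕ} {q : ℕ} (hq : q ∈ S) :
    insert q (V₀ ∪ S.erase q) = V₀ ∪ S := by
  rw [← Finset.union_insert, Finset.insert_erase hq]

/-- **Descent to no auxiliary prime.**  At every stage the new quotient is a module over the ring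
of pairs, the operators away from `S₀` being traces of Frobenius elements and the unit root a root
of `X ^ 2 - τ₂ X + 2`; the trace to a face has kernel killed by monodromy (`hker`). -/
theorem descent_loop (hr : IsDihedralResidual E.D D.rbar)
    (hspan : Submodule.span (ResidueField O) (Set.range D.rbar) = ⊤)
    (hS : T.CoreInS) (hχ : T.χ = 1) (hV : V₀ ∪ E.aux ⊆ T.W)
    (hdisj : ∀ q ∈ E.aux, q ∉ V₀ ∧ q ∉ Q)
    (P : ℕ → ValuationSubring (AlgebraicClosure ℚ)) (φ : ℕ → GQ)
    (hP : ∀ q ∈ E.aux, (P q).LiesOverPrime q ∧ (P q).IsFrobeniusAt (φ q) q ∧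
      (D.rbar (φ q)).trace = 0 ∧ D.rbar (φ q) ≠ 1)
    (hihara : ∀ (q : ℕ) (S : Stage E), q ∈ S.1 → q.Prime →
      IharaPrimes (awayMonoid T.m) (T.level (V₀ ∪ (S.erase q).1)) q 2)
    (hcube : T.CubeInjective hV (V₀ ∪ E.aux))
    (h : ∀ S : Stage E, IsResidualPair D S.data Q C)
    (U : ∀ S : Stage E, (pairFunctor (h S)).UniversalPoint)
    [∀ S : Stage E, Module (U S).R (T.NewQuot O (stage_subset E T V₀ hV S) (V₀ ∪ S.1))]
    [∀ S : Stage E, IsScalarTower O (U S).R (T.NewQuot O (stage_subset E T V₀ hV S) (V₀ ∪ S.1))]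
    (S₀ : Finset ℕ) (τ : ℕ → AwayPoly O T.S) (τ₂ : AwayPoly O T.S)
    (hτ : ∀ (S : Stage E) (ℓ : ℕ), ℓ.Prime → ℓ ∉ S₀ → ∀ P' : ValuationSubring (AlgebraicClosure ℚ),
      P'.LiesOverPrime ℓ → ∀ σ : GQ, P'.IsFrobeniusAt σ ℓ →
        ∀ m : T.NewQuot O (stage_subset E T V₀ hV S) (V₀ ∪ S.1),
          Matrix.trace (uRep (U S) σ) • m
            = T.newAct O (stage_subset E T V₀ hV S) (V₀ ∪ S.1) (τ ℓ) m)
    (hα : ∀ (S : Stage E) (m : T.NewQuot O (stage_subset E T V₀ hV S) (V₀ ∪ S.1)),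
      T.newAct O (stage_subset E T V₀ hV S) (V₀ ∪ S.1) τ₂ (uRoot (U S) • m)
        = uRoot (U S) • uRoot (U S) • m + (2 : O) • m)
    (κ : ℕ → O) (hκ : ∀ q ∈ E.aux, IsUnit (κ q))
    (hu : ∀ (q : ℕ) [Fact q.Prime] (S : Stage E) (hqW : q ∈ T.W)
      (hqV : q ∉ V₀ ∪ (S.erase q).1), q ∈ S.1 →
      ∀ m : T.NewQuot O (stage_subset E T V₀ hV (S.erase q)) (V₀ ∪ (S.erase q).1),
        ((uRep (U (S.erase q)) (φ q)).trace
            - (E.sgn q : (U (S.erase q)).R) * ((q : (U (S.erase q)).R) + 1)) • m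
          = κ q • T.degQuot O (stage_subset E T V₀ hV (S.erase q)) hqW hqV _ m)
    (hker : ∀ (q : ℕ) [Fact q.Prime] (S : Stage E) (hqV : q ∉ V₀ ∪ (S.erase q).1)
      (hq : q ∈ S.1) (x : T.signed O (stage_subset E T V₀ hV S)),
      Submodule.Quotient.mk (T.down O hS (stage_subset E T V₀ hV S) hqV
          (insert_union_erase V₀ hq) x) ∈
        LinearMap.range (T.degQuot O (stage_subset E T V₀ hV (S.erase q))
          (stage_subset E T V₀ hV S (Finset.mem_union_right V₀ hq)) hqV (V₀ ∪ (S.erase q).1)) →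
      (Submodule.Quotient.mk x : T.NewQuot O (stage_subset E T V₀ hV S) (V₀ ∪ S.1)) ∈
        Scalar.inertiaIdeal (uRep (U S)) (P q) •
          (⊤ : Submodule (U S).R (T.NewQuot O (stage_subset E T V₀ hV S) (V₀ ∪ S.1))))
    (hci : IsFiniteCI O (U ⟨E.aux, subset_rfl⟩).R)
    (β : Module.Basis (Fin 2) (U ⟨E.aux, subset_rfl⟩).R
      (T.NewQuot O (stage_subset E T V₀ hV ⟨E.aux, subset_rfl⟩) (V₀ ∪ E.aux)))
    (S : Stage E) :
    IsFiniteCI O (U S).R ∧ Nonempty
      (Module.Basis (Fin 2) (U S).R (T.NewQuot O (stage_subset E T V₀ hV S) (V₀ ∪ S.1))) := by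
  obtain ⟨k, hk⟩ : ∃ k, (E.aux \ S.1).card = k := ⟨_, rfl⟩
  induction k generalizing S with
  | zero =>
    obtain ⟨S, hSA⟩ := S
    obtain rfl : S = E.aux :=
      hSA.antisymm (Finset.sdiff_eq_empty_iff_subset.mp (Finset.card_eq_zero.mp hk))
    exact ⟨hci, ⟨β⟩⟩
  | succ k ih =>
    obtain ⟨q, hq⟩ : (E.aux \ S.1).Nonempty := Finset.card_pos.mp (by omega)
    obtain ⟨hqA, hqS⟩ := Finset.mem_sdiff.mp hq
    obtain ⟨S, hSA⟩ := S
    obtain ⟨X, hqq, rfl⟩ : ∃ X, q ∈ X ∧ S = X.erase q :=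
      ⟨insert q S, Finset.mem_insert_self q S, (Finset.erase_insert hqS).symm⟩
    have hXA : X ⊆ E.aux := fun x hx => if hxq : x = q then hxq ▸ hqA else
      hSA (Finset.mem_erase.mpr ⟨hxq, hx⟩)
    let S' : Stage E := ⟨X, hXA⟩
    obtain ⟨hci', ⟨β'⟩⟩ := ih S' (by
      have h1 : E.aux \ X.erase q = insert q (E.aux \ X) := Finset.sdiff_erase hqA
      rw [h1, Finset.card_insert_of_notMem fun hm => (Finset.mem_sdiff.mp hm).2 hqq] at hk
      exact Nat.succ_injective hk)
    have := Fact.mk (E.aux_spec q hqA).1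
    have hqV : q ∉ V₀ ∪ (S'.erase q).1 := fun hm => (Finset.mem_union.mp hm).elim
      (hdisj q hqA).1 (Finset.notMem_erase q _)
    have hins := insert_union_erase V₀ hqq
    obtain ⟨hPq, hφq, htr, hne⟩ := hP q hqA
    have hqW : q ∈ T.W := hV (Finset.mem_union_right V₀ hqA)
    refine descent_newQuot (E := S'.data) (hA := h S') (hB := h (S'.erase q)) T hS
      (stage_subset E T V₀ hV S') hqV hins (U S') (U (S'.erase q)) hr hspan hqq (hdisj q hqA).2
      hPq hφq htr hne (hihara q S' hqq (E.aux_spec q hqA).1) ?_ ?_ S₀ τ τ₂ (hτ S')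
      (hτ (S'.erase q)) (hα S') (hα (S'.erase q)) (hκ q hqA) ?_ ?_ (hker q S' hqV hqq) hci' β'
    · exact hcube.mono (Finset.union_subset_union_right S'.2)
    · exact hcube.mono (Finset.union_subset_union_right (S'.erase q).2)
    · exact hu q S' hqW hqV hqq
    · exact T.degQuot_injective hχ _ hqW hqV subset_rfl
        (hcube.mono (Finset.union_subset_union_right (S'.erase q).2))

end Descend

end Fermat.Agent.TwoAdic
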