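import Mathlib.RingTheory.Filtration
import Mathlib.RingTheory.LocalRing.ResidueField.Basic
import Mathlib.RingTheory.Artinian.Ring
import Mathlib.RingTheory.AdicCompletion.Basic
import Mathlib.LinearAlgebra.Quotient.Basic
import Mathlib.RingTheory.Ideal.Quotient.Index
import Mathlib.RingTheory.Finiteness.Cardinality
import Mathlib.Algebra.Module.Torsion.Basic
import Mathlib.Tactic.Abel

/-!
Intertwining two actions through a map of finite modules: it suffices on topological generators,
and unit roots of a quadratic intertwine by themselves.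
-/

set_option autoImplicit false

open IsLocalRing

namespace Fermat.Agent.TwoAdic.Descend

variable {O : Type} [CommRing O] [IsLocalRing O] [IsNoetherianRing O]
  {M Q : Type} [AddCommGroup M] [Module O M] [Module.Finite O M]
  [AddCommGroup Q] [Module O Q] [Module.Finite O Q]

omit [Module.Finite O M] in
theorem eq_zero_of_mem_smul_pow {x : Q}
    (h : ∀ k : ℕ, x ∈ maximalIdeal O ^ k • (⊤ : Submodule O Q)) : x = 0 := by
  have h1 := Ideal.iInf_pow_smul_eq_bot_of_isLocalRing (M := Q) (maximalIdeal O)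
    (maximalIdeal.isMaximal O).ne_top
  rw [← Submodule.mem_bot O, ← h1]
  exact Submodule.mem_iInf _ |>.mpr h

omit [IsLocalRing O] [IsNoetherianRing O] in
omit [Module.Finite O M] [Module.Finite O Q] in
theorem map_mem_smul (f : M →ₗ[O] Q) {I : Ideal O} {x : M}
    (hx : x ∈ I • (⊤ : Submodule O M)) : f x ∈ I • (⊤ : Submodule O Q) := by
  have h := Submodule.mem_map_of_mem (f := f) hx
  rw [Submodule.map_smul''] at h
  exact Submodule.smul_mono le_rfl le_top h

variable [Finite (ResidueField O)]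

/-- A high power of the maximal ideal acts into `m_O^k • M`. -/
theorem exists_pow_act {R : Type} [CommRing R] [IsLocalRing R] [Algebra O R]
    (act : R →ₐ[O] Module.End O M) (k : ℕ) :
    ∃ N, ∀ x ∈ maximalIdeal R ^ N, ∀ m, act x m ∈ maximalIdeal O ^ k • (⊤ : Submodule O M) := by
  have : Finite (O ⧸ maximalIdeal O) := ‹Finite (ResidueField O)›
  have : Finite (O ⧸ maximalIdeal O ^ k) := Ideal.finite_quotient_pow (IsNoetherian.noetherian _) k
  have : Module.Finite (O ⧸ maximalIdeal O ^ k)
      (M ⧸ maximalIdeal O ^ k • (⊤ : Submodule O M)) :=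
    Module.Finite.of_restrictScalars_finite O _ _
  have : Finite (M ⧸ maximalIdeal O ^ k • (⊤ : Submodule O M)) :=
    Module.finite_of_finite (O ⧸ maximalIdeal O ^ k)
  let S := maximalIdeal O ^ k • (⊤ : Submodule O M)
  let J : Ideal R :=
    { carrier := {x | ∀ m, act x m ∈ S}
      add_mem' := fun {x y} hx hy m => by
        rw [map_add, LinearMap.add_apply]; exact add_mem (hx m) (hy m)
      zero_mem' := fun m => by rw [map_zero]; exact S.zero_mem
      smul_mem' := fun r x hx m => by
        rw [smul_eq_mul, map_mul, Module.End.mul_apply]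
        exact map_mem_smul (act r) (hx m) }
  let ev : R ⧸ J → (M ⧸ S → M ⧸ S) := fun c =>
    Quotient.liftOn' c (fun x => S.mapQ S (act x) fun m hm => map_mem_smul (act x) hm)
      fun x y hxy => funext fun z => by
        obtain ⟨m, rfl⟩ := Submodule.Quotient.mk_surjective S z
        have h := (Submodule.quotientRel_def J).mp hxy m
        rw [map_sub, LinearMap.sub_apply] at h
        exact (Submodule.Quotient.eq S).mpr h
  have hev : Function.Injective ev := fun c d h => by
    obtain ⟨x, rfl⟩ := Ideal.Quotient.mk_surjective c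
    obtain ⟨y, rfl⟩ := Ideal.Quotient.mk_surjective d
    refine Ideal.Quotient.eq.mpr fun m => ?_
    have h1 := congrFun h (Submodule.Quotient.mk m)
    rw [map_sub, LinearMap.sub_apply]
    exact (Submodule.Quotient.eq S).mp h1
  have : Finite (R ⧸ J) := Finite.of_injective ev hev
  by_cases hJ : J = ⊤
  · exact ⟨0, fun x _ => (hJ ▸ Submodule.mem_top : x ∈ J)⟩
  have : Nontrivial (R ⧸ J) := Ideal.Quotient.nontrivial_iff.mpr hJ
  have : IsLocalRing (R ⧸ J) :=
    IsLocalRing.of_surjective' (Ideal.Quotient.mk J) Ideal.Quotient.mk_surjective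
  have hnil := IsArtinianRing.isNilpotent_jacobson_bot (R := R ⧸ J)
  rw [IsLocalRing.jacobson_eq_maximalIdeal _ bot_ne_top] at hnil
  obtain ⟨N, hN⟩ := hnil
  refine ⟨N, fun x hx => (?_ : x ∈ J)⟩
  rw [← Ideal.Quotient.eq_zero_iff_mem, ← Ideal.mem_bot, ← Ideal.zero_eq_bot, ← hN,
    ← IsLocalRing.map_maximalIdeal_of_surjective (Ideal.Quotient.mk J) Ideal.Quotient.mk_surjective,
    ← Ideal.map_pow]
  exact Ideal.mem_map_of_mem _ hx

/-- **Intertwining from topological generators.** -/
theorem intertwine_of_dense {R : Type} [CommRing R] [IsLocalRing R] [Algebra O R]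
    (f : R →ₐ[O] Module.End O M) (g : R →ₐ[O] Module.End O Q) (p : M →ₗ[O] Q) (G : Set R)
    (hdense : ∀ (r : R) (n : ℕ), ∃ s ∈ Algebra.adjoin O G, r - s ∈ maximalIdeal R ^ n)
    (hG : ∀ x ∈ G, ∀ m, p (f x m) = g x (p m)) (x : R) (m : M) : p (f x m) = g x (p m) := by
  have hadj : ∀ s ∈ Algebra.adjoin O G, ∀ m, p (f s m) = g s (p m) := by
    intro s hs
    induction hs using Algebra.adjoin_induction with
    | mem x hx => exact hG x hx
    | algebraMap o => intro m; rw [AlgHom.commutes, AlgHom.commutes,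
        Module.algebraMap_end_apply, Module.algebraMap_end_apply, map_smul]
    | add a b _ _ ha hb => intro m; rw [map_add, map_add, LinearMap.add_apply, LinearMap.add_apply,
        map_add, ha, hb]
    | mul a b _ _ ha hb => intro m; rw [map_mul, map_mul, Module.End.mul_apply,
        Module.End.mul_apply, ha, hb]
  rw [← sub_eq_zero]
  refine eq_zero_of_mem_smul_pow (O := O) fun k => ?_
  obtain ⟨N₁, h₁⟩ := exists_pow_act f k
  obtain ⟨N₂, h₂⟩ := exists_pow_act g k
  obtain ⟨s, hs, hxs⟩ := hdense x (N₁ + N₂)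
  rw [show p (f x m) - g x (p m) = p (f (x - s) m) - g (x - s) (p m) by
    rw [map_sub f, map_sub g, LinearMap.sub_apply, LinearMap.sub_apply, map_sub, hadj s hs]; abel]
  exact sub_mem (map_mem_smul p (h₁ _ (Ideal.pow_le_pow_right (N₁.le_add_right N₂) hxs) m))
    (h₂ _ (Ideal.pow_le_pow_right (N₂.le_add_left N₁) hxs) (p m))

omit [Finite (ResidueField O)] [Module.Finite O M] in
/-- **Unit roots intertwine**: `a² - T a + 2 = 0` and `b² - T' b + 2 = 0` with `a`, `b` units and
`p T = T' p` give `p a = b p`. -/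
theorem intertwine_unit_root (h2 : (2 : O) ∈ maximalIdeal O) (p : M →ₗ[O] Q)
    (a a' T : Module.End O M) (b b' T' : Module.End O Q) (haa : a * a' = 1) (_hab : a' * a = 1)
    (hbb : b * b' = 1) (hba : b' * b = 1) (hTa : T * a = a * a + (2 : O) • 1)
    (hTb : T' * b = b * b + (2 : O) • 1) (hpT : ∀ m, p (T m) = T' (p m)) (m : M) :
    p (a m) = b (p m) := by
  have hT : T = a + (2 : O) • a' := by
    calc T = T * a * a' := by rw [mul_assoc, haa, mul_one]
      _ = _ := by rw [hTa, add_mul, mul_assoc, haa, mul_one, smul_mul_assoc, one_mul]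
  have hT' : T' = b + (2 : O) • b' := by
    calc T' = T' * b * b' := by rw [mul_assoc, hbb, mul_one]
      _ = _ := by rw [hTb, add_mul, mul_assoc, hbb, mul_one, smul_mul_assoc, one_mul]
  have hb1 : ∀ z, b' (b z) = z := fun z => LinearMap.congr_fun hba z
  have ha1 : ∀ z, a (a' z) = z := fun z => LinearMap.congr_fun haa z
  let Δ : M →ₗ[O] Q := p ∘ₗ a - b ∘ₗ p
  have key : ∀ z, Δ z = (2 : O) • b' (Δ (a' z)) := fun z => by
    have h1 : b' (b (Δ z)) = b' ((2 : O) • Δ (a' z)) := by
      congr 1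
      have e1 := hpT z
      simp only [hT, hT', LinearMap.add_apply, LinearMap.smul_apply, map_add, map_smul] at e1
      have e2 : b ((2 : O) • b' (p z)) = (2 : O) • p z := by
        rw [map_smul]; exact congrArg _ (LinearMap.congr_fun hbb (p z))
      have e3 : p (a z) = b (p z) + (2 : O) • b' (p z) - (2 : O) • p (a' z) := by
        rw [← e1]; abel
      simp only [Δ, LinearMap.sub_apply, LinearMap.comp_apply, map_sub, smul_sub, ha1]
      rw [e3, map_sub, map_add, e2, map_smul]
      abel
    rw [hb1, map_smul] at h1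
    exact h1
  have hk : ∀ k z, Δ z ∈ maximalIdeal O ^ k • (⊤ : Submodule O Q) := by
    intro k
    induction k with
    | zero => intro z; simp
    | succ k ih =>
      intro z
      rw [key, pow_succ', Submodule.mul_smul]
      exact Submodule.smul_mem_smul h2 (map_mem_smul b' (ih (a' z)))
  exact sub_eq_zero.mp (eq_zero_of_mem_smul_pow (O := O) fun k => hk k m)

omit [Finite (ResidueField O)] [Module.Finite O M] in
/-- Units intertwine as soon as `a + 2 a⁻¹` does. -/
theorem intertwine_unit_smul {R : Type} [CommRing R] [Algebra O R] [Module R M]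
    [IsScalarTower O R M] {R' : Type} [CommRing R'] [Algebra O R'] [Module R' Q]
    [IsScalarTower O R' Q] (h2 : (2 : O) ∈ maximalIdeal O) (p : M →ₗ[O] Q) (a : Rˣ) (b : R'ˣ)
    (h : ∀ m, p ((a : R) • m + (2 : O) • ((a⁻¹ : Rˣ) : R) • m)
      = (b : R') • p m + (2 : O) • ((b⁻¹ : R'ˣ) : R') • p m) (m : M) :
    p ((a : R) • m) = (b : R') • p m := by
  refine intertwine_unit_root h2 p (Algebra.lsmul O O M (a : R))
    (Algebra.lsmul O O M ((a⁻¹ : Rˣ) : R))
    (Algebra.lsmul O O M (a : R) + (2 : O) • Algebra.lsmul O O M ((a⁻¹ : Rˣ) : R))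
    (Algebra.lsmul O O Q (b : R')) (Algebra.lsmul O O Q ((b⁻¹ : R'ˣ) : R'))
    (Algebra.lsmul O O Q (b : R') + (2 : O) • Algebra.lsmul O O Q ((b⁻¹ : R'ˣ) : R'))
    ?_ ?_ ?_ ?_ ?_ ?_ h m
  · rw [← map_mul, a.mul_inv, map_one]
  · rw [← map_mul, a.inv_mul, map_one]
  · rw [← map_mul, b.mul_inv, map_one]
  · rw [← map_mul, b.inv_mul, map_one]
  · rw [add_mul, smul_mul_assoc, ← map_mul _ ((a⁻¹ : Rˣ) : R), a.inv_mul, map_one]
  · rw [add_mul, smul_mul_assoc, ← map_mul _ ((b⁻¹ : R'ˣ) : R'), b.inv_mul, map_one]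

omit [Finite (ResidueField O)] [Module.Finite O M] in
/-- Unit roots of `X ^ 2 - t X + 2` intertwine. -/
theorem intertwine_root {R : Type} [CommRing R] [Algebra O R] [Module R M] [IsScalarTower O R M]
    {R' : Type} [CommRing R'] [Algebra O R'] [Module R' Q] [IsScalarTower O R' Q]
    {M' : Type} [AddCommGroup M'] [Module O M'] [Module R' M'] [IsScalarTower O R' M']
    (h2 : (2 : O) ∈ maximalIdeal O) (p : M →ₗ[O] Q) {α : R} (hα : IsUnit α) {β : R'}
    (hβ : IsUnit β) (t : Module.End O M) (t' : Module.End O M')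
    (ht : ∀ m, t (α • m) = α • α • m + (2 : O) • m)
    (ht' : ∀ m, t' (β • m) = β • β • m + (2 : O) • m)
    (hp : ∀ y : R', (∀ z, t' z = y • z) → ∀ m, p (t m) = y • p m) (m : M) :
    p (α • m) = β • p m := by
  obtain ⟨a, rfl⟩ := hα
  obtain ⟨b, rfl⟩ := hβ
  have hA : ∀ m, t m = (a : R) • m + (2 : O) • ((a⁻¹ : Rˣ) : R) • m := fun m => by
    conv_lhs => rw [← one_smul R m, ← a.mul_inv, mul_smul]
    rw [ht, smul_smul (a : R) ((a⁻¹ : Rˣ) : R) m, a.mul_inv, one_smul]
  have hB : ∀ z, t' z = ((b : R') + algebraMap O R' 2 * ((b⁻¹ : R'ˣ) : R')) • z := fun z => by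
    conv_lhs => rw [← one_smul R' z, ← b.mul_inv, mul_smul]
    rw [ht', smul_smul (b : R') ((b⁻¹ : R'ˣ) : R') z, b.mul_inv, one_smul, add_smul, mul_smul,
      algebraMap_smul]
  refine intertwine_unit_smul h2 p a b (fun m => ?_) m
  rw [← hA, hp _ hB m, add_smul, mul_smul, algebraMap_smul]

end Fermat.Agent.TwoAdic.Descend
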