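import Mathlib.RingTheory.Nakayama
import Mathlib.RingTheory.LocalRing.RingHom.Basic
import Mathlib.RingTheory.Finiteness.Basic
import Mathlib.Tactic.Module

/-!
An element acting like an element in the kernel of the pseudo-character modulo `I` acts as the
identity modulo `I`, given one element of unit trace and one of trace in the maximal ideal.
-/

set_option autoImplicit false

open IsLocalRing

namespace Fermat.Agent.TwoAdic.Descend

variable {R G M : Type} [CommRing R] [Group G] [AddCommGroup M] [Module R M]
  (act : G →* Module.End R M) (t d : G → R)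

/-- The polarised quadratic relation. -/
theorem polarised_relation (hrel : ∀ g m, act g (act g m) - t g • act g m + d g • m = 0)
    (hd : ∀ g h, d (g * h) = d g * d h) (g h : G) (m : M) :
    act h (act g m) + act g (act h m) - t g • act h m - t h • act g m
      + (t g * t h - t (g * h)) • m = 0 := by
  have hcan : ∀ a z, act a⁻¹ (act a z) = z := fun a z => by
    rw [← Module.End.mul_apply, ← map_mul, inv_mul_cancel, map_one, Module.End.one_apply]
  have hcan' : ∀ a z, act a (act a⁻¹ z) = z := fun a z => by
    rw [← Module.End.mul_apply, ← map_mul, mul_inv_cancel, map_one, Module.End.one_apply]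
  have hinv : ∀ a z, d a • act a⁻¹ z = t a • z - act a z := fun a z => by
    have h1 := congrArg (act a⁻¹) (hrel a z)
    simp only [map_add, map_sub, map_smul, map_zero, hcan] at h1
    rw [← sub_eq_zero, ← h1]
    abel
  -- the relation of `g h` read through `g⁻¹` and `h⁻¹`
  have h1 := congrArg (act g⁻¹) (hrel (g * h) (act h⁻¹ m))
  simp only [map_add, map_sub, map_smul, map_zero, map_mul, Module.End.mul_apply, hcan, hcan',
    hd, mul_smul] at h1
  rw [← map_smul (act g⁻¹) (d h), hinv h m, hinv g] at h1
  simp only [map_sub, map_smul, smul_sub] at h1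
  rw [← h1]
  module

/-- **Monodromy lands in the ideal.** -/
theorem range_sub_one_le [IsLocalRing R] [Module.Finite R M]
    (hrel : ∀ g m, act g (act g m) - t g • act g m + d g • m = 0)
    (hd : ∀ g h, d (g * h) = d g * d h) (I : Ideal R) (_hI : I ≤ maximalIdeal R) {σ : G}
    (hσ2 : t σ - 2 ∈ I) (hσ : ∀ g, t (σ * g) - t g ∈ I) (h2 : (2 : R) ∈ maximalIdeal R)
    {g f : G} (hg : IsUnit (t g)) (hf : t f ∈ maximalIdeal R)
    (hgf : t (g * f) ∈ maximalIdeal R) (m : M) :
    act σ m - m ∈ I • (⊤ : Submodule R M) := by
  let X : M →ₗ[R] M := act σ - 1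
  have hX : ∀ z, X z = act σ z - z := fun _ => rfl
  have hmem : ∀ {r : R}, r ∈ I → ∀ z : M, r • z ∈ I • (⊤ : Submodule R M) :=
    fun hr z => Submodule.smul_mem_smul hr Submodule.mem_top
  have hact : ∀ (y : G) (z : M), z ∈ I • (⊤ : Submodule R M) → act y z ∈ I • (⊤ : Submodule R M) :=
    fun y z hz => by
      have h := Submodule.mem_map_of_mem (f := act y) hz
      rw [Submodule.map_smul''] at h
      exact Submodule.smul_mono le_rfl le_top h
  have key : ∀ y z, act y (X z) + X (act y z) - t y • X z ∈ I • (⊤ : Submodule R M) := fun y z => by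
    have h1 := polarised_relation act t d hrel hd σ y z
    have h3 : act y (X z) + X (act y z) - t y • X z =
        (t σ - 2) • act y z - (t σ - 2) • t y • z + (t (σ * y) - t y) • z := by
      rw [← sub_eq_zero, ← h1, hX, hX, map_sub]
      module
    rw [h3]
    exact add_mem (sub_mem (hmem hσ2 _) (hmem hσ2 _)) (hmem (hσ y) _)
  let N := LinearMap.range X
  have hstep : N ≤ I • (⊤ : Submodule R M) ⊔ maximalIdeal R • N := by
    rintro _ ⟨z, rfl⟩
    obtain ⟨u, hu⟩ := hg
    let w := act f⁻¹ z
    have hw : act f w = z := by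
      show act f (act f⁻¹ z) = z
      rw [← Module.End.mul_apply, ← map_mul, mul_inv_cancel, map_one, Module.End.one_apply]
    have e1 := hact g _ (key f w)
    have e2 := key g (act f w)
    have e3 := key (g * f) w
    have e4 := Submodule.smul_mem (I • (⊤ : Submodule R M)) (t f) (key g w)
    rw [map_sub, map_add, map_smul] at e1
    have hgfw : ∀ z, act (g * f) z = act g (act f z) := fun z => by
      rw [map_mul, Module.End.mul_apply]
    rw [hgfw, hgfw] at e3
    -- `t g X(f w) ≡ (t g t f - t (g f)) X w - t f X (g w) + 2 X (g f w)`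
    have hmain : (u : R) • X z - (((t g * t f - t (g * f)) • X w - t f • X (act g w)
        + (2 : R) • X (act g (act f w)))) ∈ I • (⊤ : Submodule R M) := by
      have h := sub_mem (sub_mem e3 e1) (sub_mem e4 (neg_mem (sub_mem e2 e2)))
      rw [← hw, hu]
      convert sub_mem (neg_mem h) e2 using 1
      module
    have hN : (t g * t f - t (g * f)) • X w - t f • X (act g w)
        + (2 : R) • X (act g (act f w)) ∈ maximalIdeal R • N :=
      add_mem (sub_mem
        (Submodule.smul_mem_smul (sub_mem (Ideal.mul_mem_left _ _ hf) hgf) ⟨w, rfl⟩)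
        (Submodule.smul_mem_smul hf ⟨_, rfl⟩)) (Submodule.smul_mem_smul h2 ⟨_, rfl⟩)
    have h5 : (u : R) • X z ∈ I • (⊤ : Submodule R M) ⊔ maximalIdeal R • N := by
      rw [← sub_add_cancel ((u : R) • X z) _]
      exact Submodule.add_mem_sup hmain hN
    simpa [smul_smul] using Submodule.smul_mem _ ((u⁻¹ : Rˣ) : R) h5
  by_cases hfg : N.FG
  · exact Submodule.le_of_le_smul_of_le_jacobson_bot hfg
      (IsLocalRing.maximalIdeal_le_jacobson ⊥) hstep ⟨m, rfl⟩
  · exact absurd (Submodule.FG.map X Module.Finite.fg_top) (by
      rwa [Submodule.map_top])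

end Fermat.Agent.TwoAdic.Descend
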