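import Fermat.Agent.TwoAdic.Descend.GaloisQuot
import Fermat.Agent.TwoAdic.Descend.Intertwine
import Fermat.Agent.TwoAdic.Descend.Monodromy
import Fermat.Agent.TwoAdic.Pair.Quotient
import Fermat.Agent.TwoAdic.TSide.Surjection
import Fermat.Agent.SemistableRed.AllFacts

/-!
On a new quotient modulo an ideal of finite index with an action of the ring of pairs whose traces
are the Hecke operators, Galois commutes with the action and satisfies the characteristic equation
of the universal pair.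
-/

set_option autoImplicit false

noncomputable section

open IsLocalRing GaloisRep CongruenceSubgroup Fermat.Agent.DefRing Fermat.Agent.Deform

namespace Fermat.Agent.TwoAdic

/-- An action descends along a surjection whose kernel is stable. -/
theorem exists_descended_action {O R M N : Type} [CommRing O] [CommRing R] [Algebra O R]
    [AddCommGroup M] [Module O M] [Module R M] [IsScalarTower O R M] [AddCommGroup N] [Module O N]
    (p : M →ₗ[O] N) (hp : Function.Surjective p) (hker : ∀ r : R, ∀ x, p x = 0 → p (r • x) = 0) :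
    ∃ f : R →ₐ[O] Module.End O N, ∀ r x, f r (p x) = p (r • x) := by
  classical
  let s := Function.surjInv hp
  have hs : ∀ y, p (s y) = y := Function.surjInv_eq hp
  have key : ∀ (r : R) x y, p x = p y → p (r • x) = p (r • y) := fun r x y h => by
    rw [← sub_eq_zero, ← map_sub, ← smul_sub]
    exact hker r _ (by rw [map_sub, h, sub_self])
  let f₀ : R → Module.End O N := fun r =>
    { toFun := fun y => p (r • s y)
      map_add' := fun y z => by
        rw [← map_add, ← smul_add]
        exact key r _ _ (by rw [map_add, hs, hs, hs])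
      map_smul' := fun o y => by
        rw [RingHom.id_apply, ← map_smul, smul_comm]
        exact key r _ _ (by rw [map_smul, hs, hs]) }
  have hf : ∀ r x, f₀ r (p x) = p (r • x) := fun r x => key r _ _ (hs _)
  have hext : ∀ (g : Module.End O N) (r : R), (∀ x, g (p x) = p (r • x)) → f₀ r = g := fun g r h =>
    LinearMap.ext fun y => by rw [← hs y, hf, h]
  refine ⟨{ toFun := f₀, map_one' := ?_, map_mul' := ?_, map_zero' := ?_, map_add' := ?_,
            commutes' := ?_ }, hf⟩
  · exact hext _ _ fun x => by rw [one_smul, Module.End.one_apply]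
  · exact fun r r' => hext _ _ fun x => by rw [Module.End.mul_apply, hf, hf, mul_smul]
  · exact hext _ _ fun x => by rw [zero_smul, map_zero, LinearMap.zero_apply]
  · exact fun r r' => hext _ _ fun x => by rw [LinearMap.add_apply, hf, hf, add_smul, map_add]
  · exact fun o => hext _ _ fun x => by rw [Module.algebraMap_end_apply, algebraMap_smul, map_smul]

open HeckeJ0 LevelRaising HeckeModule

attribute [local instance] ALSetup.isPrime

namespace Descend

open Pair

variable {O : Type} [CommRing O] [IsDomain O] [IsDiscreteValuationRing O]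
  [IsAdicComplete (maximalIdeal O) O] [Finite (ResidueField O)] [CharP (ResidueField O) 2]
  {D : NormalData O} {E : LiftData} {Q : Finset ℕ} {C : Set (GQ × GQ)}
  {h : IsResidualPair D E Q C} (T : ALSetup O) {V B : Finset ℕ} (hV : V ⊆ T.W)

omit [IsAdicComplete (maximalIdeal O) O] [Finite (ResidueField O)] [CharP (ResidueField O) 2] in
/-- Coefficients modulo `m ^ k` are killed by `2 ^ k`. -/
theorem two_pow_smul_mod (T : ALSetup O) (k : ℕ) (a : O ⧸ maximalIdeal O ^ k) :
    2 ^ k • a = 0 := by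
  obtain ⟨a, rfl⟩ := Submodule.mkQ_surjective _ a
  rw [← Nat.cast_smul_eq_nsmul O, Nat.cast_pow, Nat.cast_ofNat, ← map_smul, Submodule.mkQ_apply,
    Submodule.Quotient.mk_eq_zero]
  exact Ideal.mul_mem_right a _ (Ideal.pow_mem_pow T.two k)

/-- Coefficients modulo `2 ^ k` are killed by `2 ^ k`. -/
theorem two_pow_smul_span (O : Type) [CommRing O] (k : ℕ) (a : O ⧸ Ideal.span {(2 : O) ^ k}) : 2 ^ k
    • a = 0 := by
  obtain ⟨a, rfl⟩ := Submodule.mkQ_surjective _ a
  rw [← Nat.cast_smul_eq_nsmul O, Nat.cast_pow, Nat.cast_ofNat, ← map_smul, Submodule.mkQ_apply,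
    Submodule.Quotient.mk_eq_zero]
  exact Ideal.mul_mem_right a _ (Ideal.mem_span_singleton_self _)

omit [CharP (ResidueField O) 2] in
/-- **The action of the ring of pairs modulo `J`**: it commutes with Galois and the universal
characteristic equation holds. -/
theorem exists_actMod [Fact (Nat.Prime 2)] (hχ : T.χ = 1) (hSfin : T.S.Finite)
    (U : (pairFunctor h).UniversalPoint)
    (hspan : Submodule.span (ResidueField O) (Set.range D.rbar) = ⊤)
    [Module U.R (T.NewQuot O hV B)] [IsScalarTower O U.R (T.NewQuot O hV B)]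
    [Module.Finite O (T.NewQuot O hV B)]
    (S₀ : Finset ℕ) (h2 : 2 ∉ T.S)
    (hτ : ∀ (ℓ : ℕ) (hℓ : ℓ.Prime) (hℓS : ℓ ∉ T.S), ℓ ∉ S₀ →
      ∀ P : ValuationSubring (AlgebraicClosure ℚ), P.LiesOverPrime ℓ →
        ∀ σ : GQ, P.IsFrobeniusAt σ ℓ → ∀ m : T.NewQuot O hV B,
          Matrix.trace (uRep U σ) • m = T.newAct O hV B (awayX O hℓ hℓS) m)
    (hα : ∀ m : T.NewQuot O hV B,
      T.newAct O hV B (awayX O Nat.prime_two h2) (uRoot U • m)
        = uRoot U • uRoot U • m + (2 : O) • m)
    {J : Ideal O} {N₀ j : ℕ} (hJ : maximalIdeal O ^ N₀ ≤ J) (hkill : ∀ a : O ⧸ J, 2 ^ j • a = 0) :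
    ∃ f : U.R →ₐ[O] Module.End O (T.NewQuot (O ⧸ J) hV B),
      (∀ (r : U.R) (x : T.NewQuot O hV B),
        f r (T.quotMap hV B J.mkQ x)
          = T.quotMap hV B J.mkQ (r • x)) ∧
      (∀ (σ : GQ) (r : U.R) z, T.quotGal hχ hkill hV B σ (f r z)
          = f r (T.quotGal hχ hkill hV B σ z)) ∧
      ∀ (σ : GQ) z,
        T.quotGal hχ hkill hV B σ
            (T.quotGal hχ hkill hV B σ z)
          - f (Matrix.trace (uRep U σ)) (T.quotGal hχ hkill hV B σ z)
          + f ((uRep U σ).det) z = 0 := by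
  classical
  have : NeZero (T.level V) := ⟨T.level_ne_zero hV⟩
  let π := T.quotMap hV B J.mkQ
  let g := T.quotGal hχ hkill hV B
  have hπ : Function.Surjective π := T.quotMap_mkQ_surjective hV B _
  have : Module.Finite O (T.NewQuot (O ⧸ J) hV B) :=
    Module.Finite.of_surjective π hπ
  obtain ⟨f, hf⟩ := exists_descended_action (R := U.R) π hπ fun r x hx => by
    rw [T.quotMap_mkQ_eq_zero_iff] at hx ⊢
    exact map_mem_smul (Algebra.lsmul O O (T.NewQuot O hV B) r) hx
  have hfτ : ∀ (ℓ : ℕ) (hℓ : ℓ.Prime) (hℓS : ℓ ∉ T.S), ℓ ∉ S₀ →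
      ∀ P : ValuationSubring (AlgebraicClosure ℚ), P.LiesOverPrime ℓ →
        ∀ σ : GQ, P.IsFrobeniusAt σ ℓ → ∀ z,
          f (Matrix.trace (uRep U σ)) z = T.newAct _ hV B (awayX O hℓ hℓS) z := by
    intro ℓ hℓ hℓS hℓ0 P hP σ hσ z
    obtain ⟨x, hx⟩ := hπ z
    rw [← hx]
    refine (hf (Matrix.trace (uRep U σ)) x).trans ?_
    refine (congrArg π (hτ ℓ hℓ hℓS hℓ0 P hP σ hσ x)).trans ?_
    exact T.newAct_quotMap hV B J.mkQ (awayX O hℓ hℓS) x
  have hfα : ∀ z, T.newAct _ hV B (awayX O Nat.prime_two h2) (f (uRoot U) z)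
      = f (uRoot U) (f (uRoot U) z) + (2 : O) • z := fun z => by
    obtain ⟨x, hx⟩ := hπ z
    rw [← hx]
    rw [hf, hf, ← map_smul π, ← map_add π, ← hα x]
    exact (T.newAct_quotMap hV B J.mkQ _ (uRoot U • x)).symm
  refine ⟨f, hf, fun σ r z => ?_, fun σ z => ?_⟩
  · let _ : Module U.R (T.NewQuot (O ⧸ J) hV B) :=
      Module.compHom _ (f : U.R →+* Module.End O (T.NewQuot (O ⧸ J) hV B))
    have : IsScalarTower O U.R (T.NewQuot (O ⧸ J) hV B) :=
      ⟨fun o r z => by
        show f (o • r) z = o • f r z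
        rw [map_smul, LinearMap.smul_apply]⟩
    have hG := TSide.adjoin_root_trace_sub_mem U hspan (S₀ ∪ hSfin.toFinset)
    refine intertwine_of_dense f f (g σ) _ hG (fun x hx m => ?_) r z
    rcases hx with ⟨τ, ⟨ℓ, hℓ, hℓS, P, hP, hτP⟩, rfl⟩ | rfl
    · rw [Finset.mem_union, not_or, Set.Finite.mem_toFinset] at hℓS
      rw [hfτ ℓ hℓ hℓS.2 hℓS.1 P hP τ hτP, hfτ ℓ hℓ hℓS.2 hℓS.1 P hP τ hτP]
      exact T.quotGal_newAct hχ hkill hV B σ _ m
    · have hu : IsUnit (uRoot U) := by
        by_contra hc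
        have h1 := (toResidue_eq_zero_iff U.instIsLocalHom U.residue_surjective).mpr hc
        rw [(isPair_universal U).residue_eq] at h1
        exact one_ne_zero h1
      exact intertwine_root (M' := T.NewQuot (O ⧸ J) hV B) T.two (g σ) hu hu
        (T.newAct _ hV B (awayX O Nat.prime_two h2)) (T.newAct _ hV B (awayX O Nat.prime_two h2))
        hfα hfα (fun y hy x => by
          rw [T.quotGal_newAct hχ hkill hV B σ _ x]
          exact hy _) m
  · obtain ⟨L₁, hL₁, hfix⟩ := T.exists_level_quotGal hχ hkill hV B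
    obtain ⟨N, hN⟩ := exists_pow_act f N₀
    have hzero : ∀ x ∈ maximalIdeal U.R ^ N, ∀ z, f x z = 0 := fun x hx z => by
      obtain ⟨y, hy⟩ := hπ (f x z)
      obtain ⟨w, hw, hyw⟩ : ∃ w ∈ J • (⊤ : Submodule O (T.NewQuot O hV B)),
          π w = f x z := by
        have h1 : f x z ∈ (J • (⊤ : Submodule O (T.NewQuot O hV B))).map π := by
          rw [Submodule.map_smul'', Submodule.map_top, LinearMap.range_eq_top.mpr hπ]
          exact Submodule.smul_mono hJ le_rfl (hN x hx z)
        exact h1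
      rw [← hyw]
      exact (T.quotMap_mkQ_eq_zero_iff hV B _ w).mpr hw
    obtain ⟨hcont, -⟩ := (isPair_universal U).isDef.exists_cont
    obtain ⟨L₂, hL₂, hcN⟩ := hcont N
    obtain ⟨l, hl, hlbad, P, hP, φ, hφ, hagree⟩ := EigenRep.frobeniusDense (L₁ ⊔ L₂) inferInstance σ
      (S₀ ∪ hSfin.toFinset ∪ (T.level V * 2).divisors ∪ {2})
    simp only [Finset.mem_union, Finset.mem_singleton, not_or, Set.Finite.mem_toFinset,
      Nat.mem_divisors] at hlbad
    obtain ⟨⟨⟨hl0, hlS⟩, hlN⟩, hl2⟩ := hlbad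
    have hlN' : ¬ l ∣ T.level V * 2 := fun hd => hlN ⟨hd, mul_ne_zero (NeZero.ne _) two_ne_zero⟩
    have hfix' : ∀ a ∈ L₁ ⊔ L₂, (σ⁻¹ * φ) a = a := fun a ha => by
      rw [AlgEquiv.mul_apply, hagree a ha]
      exact σ.symm_apply_apply a
    have hg : g φ = g σ := by
      calc g φ = g (σ * (σ⁻¹ * φ)) := by rw [mul_inv_cancel_left]
        _ = g σ := by
          rw [map_mul, show g (σ⁻¹ * φ) = 1 from
            hfix _ fun a ha => hfix' a ((le_sup_left : L₁ ≤ L₁ ⊔ L₂) ha), mul_one]
    have hent : ∀ i j, Ideal.Quotient.mk (maximalIdeal U.R ^ N) (uRep U φ i j)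
        = Ideal.Quotient.mk _ (uRep U σ i j) := fun i j => by
      refine Ideal.Quotient.eq.mpr ?_
      rw [show uRep U φ = uRep U σ * uRep U (σ⁻¹ * φ) by rw [← map_mul, mul_inv_cancel_left],
        ← Matrix.sub_apply, ← mul_sub_one, Matrix.mul_apply]
      exact Submodule.sum_mem _ fun x _ => Ideal.mul_mem_left _ _
        (hcN _ (fun a ha => hfix' a ((le_sup_right : L₂ ≤ L₁ ⊔ L₂) ha)) x j)
    have htr : f (Matrix.trace (uRep U σ)) (g σ z) = f (Matrix.trace (uRep U φ)) (g σ z) := by
      rw [← sub_eq_zero, ← LinearMap.sub_apply, ← map_sub]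
      refine hzero _ (Ideal.Quotient.eq.mp ?_) _
      simp [Matrix.trace_fin_two, hent]
    have hdet : f (uRep U σ).det z = f (uRep U φ).det z := by
      rw [← sub_eq_zero, ← LinearMap.sub_apply, ← map_sub]
      refine hzero _ (Ideal.Quotient.eq.mp ?_) _
      simp [Matrix.det_fin_two, hent]
    rw [htr, hdet, ((det_away (isPair_universal U) hl hl2 hP).2 φ hφ), map_natCast,
      Module.End.natCast_apply, hfτ l hl hlS hl0 P hP φ hφ, show T.quotGal hχ _ hV B σ = g φ from
          hg.symm]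
    exact T.quotGal_frobenius hχ hkill hV B (SemistableRed.allRelations _ 2) hl hlS
      hlN' hP hφ z

omit [IsAdicComplete (maximalIdeal O) O] [Finite (ResidueField O)] in
/-- **Monodromy lands in the inertia ideal.** -/
theorem quotGal_sub_mem (hχ : T.χ = 1) [Fact (Nat.Prime 2)] {J : Ideal O} {j : ℕ}
    (hkill : ∀ a : O ⧸ J, 2 ^ j • a = 0)
    (U : (pairFunctor h).UniversalPoint)
    [Module U.R (T.NewQuot (O ⧸ J) hV B)]
    [Module.Finite U.R (T.NewQuot (O ⧸ J) hV B)]
    (hcomm : ∀ (σ : GQ) (r : U.R) z, T.quotGal hχ hkill hV B σ (r • z)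
      = r • T.quotGal hχ hkill hV B σ z)
    (hrel : ∀ (σ : GQ) z,
      T.quotGal hχ hkill hV B σ (T.quotGal hχ hkill hV B σ z)
        - Matrix.trace (uRep U σ) • T.quotGal hχ hkill hV B σ z
        + (uRep U σ).det • z = 0)
    (hr : IsDihedralResidual E.D D.rbar) {q : ℕ} (hq : q.Prime) (hqD : ¬ q ∣ E.D)
    {P : ValuationSubring (AlgebraicClosure ℚ)} (hP : P.LiesOverPrime q)
    {g f : GQ} (hg : (D.rbar g).trace ≠ 0) (hf : (D.rbar f).trace = 0)
    (hgf : (D.rbar (g * f)).trace = 0) {σ : GQ} (hσ : σ ∈ P.inertiaSubgroupIn ℚ)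
    (z : T.NewQuot (O ⧸ J) hV B) :
    T.quotGal hχ hkill hV B σ z - z ∈
      Scalar.inertiaIdeal (uRep U) P •
        (⊤ : Submodule U.R (T.NewQuot (O ⧸ J) hV B)) := by
  let act : GQ →* Module.End U.R (T.NewQuot (O ⧸ J) hV B) :=
    { toFun := fun τ =>
        { toFun := T.quotGal hχ hkill hV B τ
          map_add' := map_add _
          map_smul' := hcomm τ }
      map_one' := LinearMap.ext fun z => by simp
      map_mul' := fun a b => LinearMap.ext fun z => by simp }
  have hU := isPair_universal U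
  have htr : ∀ τ, toResidue U.instIsLocalHom U.residue_surjective (Matrix.trace (uRep U τ))
      = (D.rbar τ).trace := fun τ => by
    rw [← DFunLike.congr_fun hU.isDef.reduces τ, AddMonoidHom.map_trace]
    rfl
  have hI : Scalar.inertiaIdeal (uRep U) P ≤ maximalIdeal U.R := Ideal.span_le.2 (by
    rintro x ⟨τ, hτ, i, j, rfl⟩
    exact residual_inertia hU hr hq hqD hP τ hτ i j)
  have hI' : ∀ i j, (uRep U σ - 1) i j ∈ Scalar.inertiaIdeal (uRep U) P := fun i j =>
    Scalar.sub_one_mem_inertiaIdeal (uRep U) hσ i j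
  refine range_sub_one_le act (fun τ => Matrix.trace (uRep U τ)) (fun τ => (uRep U τ).det) hrel
    (fun a b => by simp) (Scalar.inertiaIdeal (uRep U) P) hI ?_ (fun τ => ?_) ?_ (g := g) (f := f)
    ?_ ?_ ?_ z
  · rw [show (2 : U.R) = Matrix.trace (1 : Matrix (Fin 2) (Fin 2) U.R) by simp, ← Matrix.trace_sub]
    exact Submodule.sum_mem _ fun i _ => hI' i i
  · show Matrix.trace (uRep U (σ * τ)) - Matrix.trace (uRep U τ) ∈ _
    rw [map_mul, ← Matrix.trace_sub, ← sub_one_mul]
    refine Submodule.sum_mem _ fun i _ => ?_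
    rw [Matrix.diag_apply, Matrix.mul_apply]
    exact Submodule.sum_mem _ fun j _ => Ideal.mul_mem_right _ _ (hI' i j)
  · rw [← toResidue_eq_zero_iff U.instIsLocalHom U.residue_surjective, map_ofNat]
    exact CharTwo.two_eq_zero
  · exact IsLocalRing.notMem_maximalIdeal.mp fun hc =>
      hg ((htr g).symm.trans ((toResidue_eq_zero_iff U.instIsLocalHom U.residue_surjective).mpr hc))
  · exact (toResidue_eq_zero_iff U.instIsLocalHom U.residue_surjective).mp ((htr f).trans hf)
  · exact (toResidue_eq_zero_iff U.instIsLocalHom U.residue_surjective).mp ((htr (g * f)).trans hgf)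

end Descend

end Fermat.Agent.TwoAdic
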