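import Fermat.Agent.TwoAdic.Modules.QuotAction

/-!
The trace and the degree operator commute with changes of coefficients.
-/

set_option autoImplicit false

universe uA

namespace Fermat.Agent.TwoAdic

open HeckeJ0 LevelRaising HeckeModule IsLocalRing CongruenceSubgroup

attribute [local instance] ALSetup.isPrime

namespace ALSetup

variable {O : Type} [CommRing O] [IsLocalRing O] (T : ALSetup O) {A B' : Type uA} [AddCommGroup A]
  [Module O A] [AddCommGroup B'] [Module O B'] {q : ℕ} [hq : Fact q.Prime] {V U : Finset ℕ}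

/-- The trace commutes with changes of coefficients. -/
theorem charMap_tr (hS : T.CoreInS) (hV : V ⊆ T.W) (hqU : q ∉ U) (hUV : insert q U = V)
    (f : A →ₗ[O] B') (x : T.H V A) :
    charMap (awayMonoid T.m) (T.char U) f (T.tr A hS hV hqU hUV x)
      = T.tr B' hS hV hqU hUV (charMap (awayMonoid T.m) (T.char V) f x) := by
  refine locMap_locLift (P := awayMonoid T.m) f (isIntertwining_scalar (T.char V) f)
      (isIntertwining_scalar (T.char U) f) (T.trCoh A hV hqU hUV) _
    (T.trCoh B' hV hqU hUV) _ (fun u => ?_) x
  have h1 : ∀ v : Coh1 (scalarRep (levelChar ((T.dvd_level U).mul_left q) T.χ) A),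
      cohMapO f (isIntertwining_scalar (T.char U) f)
          (charTrace A (T.dvd_level U) T.χ (T.not_dvd_face hV hqU hUV) ((T.dvd_level U).mul_left q)
              v)
        = charTrace B' (T.dvd_level U) T.χ (T.not_dvd_face hV hqU hUV) ((T.dvd_level U).mul_left q)
            (cohMapO f (isIntertwining_scalar _ f) v) := fun v =>
    cohMapO_onH1 f _ _
      (charTraceData A (T.dvd_level U) T.χ (T.not_dvd_face hV hqU hUV) ((T.dvd_level U).mul_left q))
      (charTraceData B' (T.dvd_level U) T.χ (T.not_dvd_face hV hqU hUV)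
          ((T.dvd_level U).mul_left q))
      (fun _ => rfl) (fun _ _ => rfl) v
  have h2 : cohMapO f (isIntertwining_scalar (levelChar ((T.dvd_level U).mul_left q) T.χ) f)
        (charDegen A (T.dvd_level V) T.χ ((T.dvd_level U).mul_left q) one_ne_zero
          (T.insert_dvd_mul hqU hUV) u)
      = charDegen B' (T.dvd_level V) T.χ ((T.dvd_level U).mul_left q) one_ne_zero
          (T.insert_dvd_mul hqU hUV) (cohMapO f (isIntertwining_scalar (T.char V) f) u) :=
    cohMapO_onH1 f _ _
      (charDegenData A (T.dvd_level V) T.χ ((T.dvd_level U).mul_left q) one_ne_zero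
        (T.insert_dvd_mul hqU hUV))
      (charDegenData B' (T.dvd_level V) T.χ ((T.dvd_level U).mul_left q) one_ne_zero
        (T.insert_dvd_mul hqU hUV))
      (fun _ => rfl) (fun _ _ => rfl) u
  exact (h1 _).trans (congrArg _ h2)

/-- The trace of signed classes commutes with changes of coefficients. -/
theorem signedMap_down (hS : T.CoreInS) (hV : V ⊆ T.W) (hqU : q ∉ U) (hUV : insert q U = V)
    (f : A →ₗ[O] B') (x : T.signed A hV) :
    T.signedMap (T.face_subset hV hUV) f (T.down A hS hV hqU hUV x)
      = T.down B' hS hV hqU hUV (T.signedMap hV f x) :=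
  Subtype.ext (T.charMap_tr hS hV hqU hUV f (x : T.H V A))

/-- The degree operator commutes with changes of coefficients. -/
theorem quotMap_degQuot (hV : V ⊆ T.W) (hqW : q ∈ T.W) (hqV : q ∉ V) (B : Finset ℕ)
    (f : A →ₗ[O] B') (z : T.NewQuot A hV B) :
    T.quotMap hV B f (T.degQuot A hV hqW hqV B z)
      = T.degQuot B' hV hqW hqV B (T.quotMap hV B f z) := by
  obtain ⟨x, rfl⟩ := Submodule.mkQ_surjective _ z
  refine congrArg Submodule.Quotient.mk (Subtype.ext ?_)
  show charMap (awayMonoid T.m) (T.char V) f (T.degOp hqW V A (x : T.H V A))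
    = T.degOp hqW V B' (charMap (awayMonoid T.m) (T.char V) f (x : T.H V A))
  rw [degOp_apply, degOp_apply, map_add,
    ← (charMap (awayMonoid T.m) (T.char V) f).map_smul (_ : HeckePoly O)]
  exact congr_arg₂ (· + ·)
    (((charMap (awayMonoid T.m) (T.char V) f).restrictScalars O).map_smul _ _)
    (((charMap (awayMonoid T.m) (T.char V) f).restrictScalars O).map_smul _ _)

end ALSetup

end Fermat.Agent.TwoAdic
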