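import Fermat.Agent.TwoAdic.Geometry.Bridge.Frobenius
import Fermat.Agent.TwoAdic.Modules.QuotAction

/-!
The Galois action on signed parts and new quotients at torsion coefficients.
-/

set_option autoImplicit false

noncomputable section

open IsLocalRing CongruenceSubgroup

namespace Fermat.Agent.TwoAdic

open HeckeJ0 LevelRaising HeckeModule

attribute [local instance] ALSetup.isPrime

local notation "Γ" => AlgebraicClosure ℚ ≃ₐ[ℚ] AlgebraicClosure ℚ

namespace ALSetup

variable {O : Type} [CommRing O] [IsLocalRing O] (T : ALSetup O) {A : Type} [AddCommGroup A]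
  [Module O A] (hχ : T.χ = 1) {p k : ℕ} [Fact p.Prime] (hA : ∀ a : A, p ^ k • a = 0) {V : Finset ℕ}

/-- The Galois action on a signed part. -/
def signedGal (hV : V ⊆ T.W) : Γ →* Module.End O (T.signed A hV) :=
  haveI : NeZero (T.level V) := ⟨T.level_ne_zero hV⟩
  { toFun := fun σ => (Bridge.setupGal T hχ hV hA σ).restrict fun x hx =>
      T.mem_signed.mpr fun e he => by
        rw [← Bridge.setupGal_w T hχ hV hA he, T.mem_signed.mp hx e he]
    map_one' := LinearMap.ext fun x => Subtype.ext
      (LinearMap.congr_fun (map_one (Bridge.setupGal T hχ hV hA)) (x : T.H V A))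
    map_mul' := fun σ τ => LinearMap.ext fun x => Subtype.ext
      (LinearMap.congr_fun (map_mul (Bridge.setupGal T hχ hV hA) σ τ) (x : T.H V A)) }

lemma coe_signedGal (hV : V ⊆ T.W) [NeZero (T.level V)] (σ : Γ) (x : T.signed A hV) :
    (T.signedGal hχ hA hV σ x : T.H V A) = Bridge.setupGal T hχ hV hA σ x := rfl

lemma signedGal_oldSigned (hV : V ⊆ T.W) {b : ℕ} (hb : b ∈ V) (σ : Γ)
    (x : T.signed A ((V.erase_subset b).trans hV)) :
    T.signedGal hχ hA hV σ (T.oldSigned A hV hb x)
      = T.oldSigned A hV hb (T.signedGal hχ hA ((V.erase_subset b).trans hV) σ x) := by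
  have : NeZero (T.level V) := ⟨T.level_ne_zero hV⟩
  have : NeZero (T.level (V.erase b)) := ⟨T.level_ne_zero ((V.erase_subset b).trans hV)⟩
  refine Subtype.ext ?_
  rw [coe_signedGal, coe_oldSigned, coe_oldSigned, coe_signedGal, T.oldMap_apply, T.oldMap_apply,
    map_add, Bridge.setupGal_w T hχ hV hA hb, Bridge.setupGal_res T hχ hV hA (V.erase_subset b)]

/-- The Galois action on a new quotient. -/
def quotGal (hV : V ⊆ T.W) (B : Finset ℕ) : Γ →* Module.End O (T.NewQuot A hV B) :=
  have hle : ∀ σ, T.oldSpace A hV B ≤ (T.oldSpace A hV B).comap (T.signedGal hχ hA hV σ) :=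
    fun σ => iSup_le fun b => iSup_le fun hb => iSup_le fun hbB => by
      rintro _ ⟨x, rfl⟩
      rw [Submodule.mem_comap, signedGal_oldSigned]
      exact T.oldSigned_mem_oldSpace A hV hb hbB _
  { toFun := fun σ => Submodule.mapQ _ _ (T.signedGal hχ hA hV σ) (hle σ)
    map_one' := Submodule.linearMap_qext _ (LinearMap.ext fun x => congrArg Submodule.Quotient.mk
      (LinearMap.congr_fun (map_one (T.signedGal hχ hA hV)) x))
    map_mul' := fun σ τ => Submodule.linearMap_qext _ (LinearMap.ext fun x =>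
      congrArg Submodule.Quotient.mk
        (LinearMap.congr_fun (map_mul (T.signedGal hχ hA hV) σ τ) x)) }

lemma quotGal_mk (hV : V ⊆ T.W) (B : Finset ℕ) (σ : Γ) (x : T.signed A hV) :
    T.quotGal hχ hA hV B σ (Submodule.Quotient.mk x)
      = Submodule.Quotient.mk (T.signedGal hχ hA hV σ x) := rfl

/-- Galois commutes with the operators away from `S`. -/
lemma quotGal_newAct (hV : V ⊆ T.W) (B : Finset ℕ) (σ : Γ) (a : AwayPoly O T.S)
    (z : T.NewQuot A hV B) :
    T.quotGal hχ hA hV B σ (T.newAct A hV B a z) = T.newAct A hV B a (T.quotGal hχ hA hV B σ z) :=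
        by
  have : NeZero (T.level V) := ⟨T.level_ne_zero hV⟩
  obtain ⟨x, rfl⟩ := Submodule.mkQ_surjective _ z
  exact congrArg Submodule.Quotient.mk
    (Subtype.ext (Bridge.setupGal_smul T hχ hV hA σ a (x : T.H V A)))

/-- An element trivial on the module of the level is trivial on the new quotient. -/
lemma exists_level_quotGal (hV : V ⊆ T.W) (B : Finset ℕ) :
    ∃ L : IntermediateField ℚ (AlgebraicClosure ℚ), FiniteDimensional ℚ L ∧
      ∀ σ : Γ, (∀ a ∈ L, σ a = a) → T.quotGal hχ hA hV B σ = 1 := by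
  have : NeZero (T.level V) := ⟨T.level_ne_zero hV⟩
  obtain ⟨L, hL, hfix⟩ := Bridge.exists_level_setupGal T hχ hV hA
  exact ⟨L, hL, fun σ hσ => Submodule.linearMap_qext _ (LinearMap.ext fun x =>
    congrArg Submodule.Quotient.mk (Subtype.ext (LinearMap.congr_fun (hfix σ hσ) (x : T.H V A))))⟩

/-- The Eichler–Shimura relation on a new quotient. -/
lemma quotGal_frobenius (hV : V ⊆ T.W) [NeZero (T.level V)] (B : Finset ℕ)
    (hes : EigenRep.EichlerShimuraRelations (T.level V) p) {l : ℕ} (hl : l.Prime) (hS : l ∉ T.S)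
    (hlN : ¬ l ∣ T.level V * p) {P : ValuationSubring (AlgebraicClosure ℚ)}
    (hP : P.LiesOverPrime l) {σ : Γ} (hσ : P.IsFrobeniusAt σ l) (z : T.NewQuot A hV B) :
    T.quotGal hχ hA hV B σ (T.quotGal hχ hA hV B σ z)
      - T.newAct A hV B (awayX O hl hS) (T.quotGal hχ hA hV B σ z) + l • z = 0 := by
  obtain ⟨x, rfl⟩ := Submodule.mkQ_surjective _ z
  have h := Bridge.setupGal_frobenius T hχ hV hA hes hl hS hlN hP hσ (x : T.H V A)
  have h0 : T.signedGal hχ hA hV σ (T.signedGal hχ hA hV σ x)
      - (T.awayOp A hV (awayX O hl hS)).signedEnd subset_rfl (T.signedGal hχ hA hV σ x)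
      + l • x = 0 := Subtype.ext h
  rw [Submodule.mkQ_apply, quotGal_mk, quotGal_mk, T.newAct_mk, ← Submodule.Quotient.mk_sub,
    ← Submodule.Quotient.mk_smul, ← Submodule.Quotient.mk_add, h0, Submodule.Quotient.mk_zero]

end ALSetup

end Fermat.Agent.TwoAdic
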