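import Fermat.Agent.TwoAdic.Descend.GaloisPair
import Fermat.Agent.TwoAdic.Descend.Coefficients
import Fermat.Agent.TwoAdic.Descend.DegInjective
import Fermat.Agent.TwoAdic.Geometry.KernelSetup
import Fermat.Agent.TwoAdic.Selmer.Residual

/-!
The input `hker` of the descent: a signed class whose trace is in the range of the degree operator
lies, in the new quotient, in the inertia ideal of the universal pair times the module.
-/

set_option autoImplicit false

noncomputable section

open IsLocalRing GaloisRep CongruenceSubgroup Fermat.Agent.DefRing Fermat.Agent.Deform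

namespace Fermat.Agent.TwoAdic

open HeckeJ0 LevelRaising HeckeModule

attribute [local instance] ALSetup.isPrime

namespace Descend

open Pair

/-- An injective endomorphism of a finite module over a discrete valuation ring loses a bounded
power of the uniformiser. -/
theorem exists_pow_bound {O M : Type} [CommRing O] [IsDomain O] [IsDiscreteValuationRing O]
    [AddCommGroup M] [Module O M] [Module.Finite O M] (f : Module.End O M)
    (hf : Function.Injective f) {a : O} (ha : a ≠ 0) :
    ∃ k, maximalIdeal O ^ k ≤ Ideal.span {a} ∧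
      ∀ m, f m ∈ maximalIdeal O ^ k • (⊤ : Submodule O M) →
        m ∈ Ideal.span {a} • (⊤ : Submodule O M) := by
  obtain ⟨ϖ, hϖ⟩ := IsDiscreteValuationRing.exists_irreducible O
  obtain ⟨i, hi⟩ := IsDiscreteValuationRing.associated_pow_irreducible ha hϖ
  have hpow : maximalIdeal O ^ i = Ideal.span {a} := by
    rw [hϖ.maximalIdeal_eq, Ideal.span_singleton_pow, Ideal.span_singleton_eq_span_singleton]
    exact hi.symm
  obtain ⟨e, he⟩ := Ideal.exists_pow_inf_eq_pow_smul (maximalIdeal O) (LinearMap.range f)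
  refine ⟨e + i, (Ideal.pow_le_pow_right (Nat.le_add_left i e)).trans hpow.le, fun m hm => ?_⟩
  have h : f m ∈ maximalIdeal O ^ (e + i) • (⊤ : Submodule O M) ⊓ LinearMap.range f :=
    ⟨hm, LinearMap.mem_range_self f m⟩
  rw [he (e + i) (Nat.le_add_right e i), Nat.add_sub_cancel_left, hpow] at h
  have h' := Submodule.smul_mono (le_refl (Ideal.span {a})) inf_le_right h
  rw [LinearMap.range_eq_map, ← Submodule.map_smul''] at h'
  obtain ⟨m', hm', he'⟩ := h'
  rwa [← hf he']

/-- An endomorphism into `m • M` is nilpotent when a power of `m` kills `M`. -/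
theorem isNilpotent_of_range_le {R M : Type} [CommRing R] [IsLocalRing R] [AddCommGroup M]
    [Module R M] {N : ℕ} (hN : ∀ x ∈ maximalIdeal R ^ N, ∀ z : M, x • z = 0)
    (e : Module.End R M) (he : ∀ z, e z ∈ maximalIdeal R • (⊤ : Submodule R M)) : IsNilpotent e :=
        by
  have hstep : ∀ i z, (e ^ i) z ∈ maximalIdeal R ^ i • (⊤ : Submodule R M) := by
    intro i
    induction i with
    | zero => intro z; simp
    | succ i ih =>
      intro z
      rw [pow_succ' e, Module.End.mul_apply, pow_succ, mul_smul]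
      have h := Submodule.mem_map_of_mem (f := e) (ih z)
      rw [Submodule.map_smul''] at h
      refine Submodule.smul_mono le_rfl ?_ h
      rintro _ ⟨y, -, rfl⟩
      exact he y
  refine ⟨N, LinearMap.ext fun z => ?_⟩
  refine Submodule.smul_induction_on (hstep N z) (fun x hx y _ => hN x hx y) fun x y hx hy => ?_
  simp [hx, hy]

variable {O : Type} [CommRing O] [IsDomain O] [IsDiscreteValuationRing O] [CharZero O]
  [IsAdicComplete (maximalIdeal O) O] [Finite (ResidueField O)] [CharP (ResidueField O) 2]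
  {D : NormalData O} {E : LiftData} {Q : Finset ℕ} {C : Set (GQ × GQ)}
  {h : IsResidualPair D E Q C} (T : ALSetup O) {V W : Finset ℕ} {q : ℕ} [Fact q.Prime]

/-- **The trace to the face is injective modulo the inertia ideal.** -/
theorem mem_inertiaIdeal_of_trace [Fact (Nat.Prime 2)] (hχ : T.χ = 1) (hSfin : T.S.Finite)
    (hS : T.CoreInS) (hV : V ⊆ T.W) (hqW : q ∉ W) (hWV : insert q W = V)
    (hcube : T.CubeInjective hV V) (hcubeW : T.CubeInjective (T.face_subset hV hWV) W)
    [NeZero (T.level V)] [NeZero (T.level W)]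
    (hr : IsDihedralResidual E.D D.rbar) (hqD : ¬ q ∣ E.D)
    (U : (pairFunctor h).UniversalPoint)
    (hspan : Submodule.span (ResidueField O) (Set.range D.rbar) = ⊤)
    [Module U.R (T.NewQuot O hV V)] [IsScalarTower O U.R (T.NewQuot O hV V)]
    (S₀ : Finset ℕ) (h2 : 2 ∉ T.S)
    (hτ : ∀ (ℓ : ℕ) (hℓ : ℓ.Prime) (hℓS : ℓ ∉ T.S), ℓ ∉ S₀ →
      ∀ P : ValuationSubring (AlgebraicClosure ℚ), P.LiesOverPrime ℓ →
        ∀ σ : GQ, P.IsFrobeniusAt σ ℓ → ∀ m : T.NewQuot O hV V,
          Matrix.trace (uRep U σ) • m = T.newAct O hV V (awayX O hℓ hℓS) m)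
    (hα : ∀ m : T.NewQuot O hV V,
      T.newAct O hV V (awayX O Nat.prime_two h2) (uRoot U • m)
        = uRoot U • uRoot U • m + (2 : O) • m)
    {P : ValuationSubring (AlgebraicClosure ℚ)} (hP : P.LiesOverPrime q) {φ : GQ}
    (htr : (D.rbar φ).trace = 0) (hne : D.rbar φ ≠ 1)
    {σ₀ : GQ} (hσ₀ : σ₀ ∈ P.inertiaSubgroupIn ℚ)
    (hrows : ∀ k, Nonempty (T.KernelRows hχ (two_pow_smul_span O k) hS hV hqW hWV σ₀ φ))
    (hΘ : ∀ k, ∃ κ : ℤ, ∀ x, T.monodromyAt hχ (two_pow_smul_span O k) hV σ₀
      (Bridge.setupGal T hχ hV (two_pow_smul_span O k) φ x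
        + κ • T.w (O ⧸ Ideal.span {(2 : O) ^ k}) hV q x) = 0)
    (htrGal : ∀ k σ x,
      T.tr (O ⧸ Ideal.span {(2 : O) ^ k}) hS hV hqW hWV
          (Bridge.setupGal T hχ hV (two_pow_smul_span O k) σ x)
        = Bridge.setupGal T hχ (T.face_subset hV hWV) (two_pow_smul_span O k) σ
            (T.tr (O ⧸ Ideal.span {(2 : O) ^ k}) hS hV hqW hWV x))
    (x : T.signed O hV)
    (hx : Submodule.Quotient.mk (T.down O hS hV hqW hWV x) ∈ LinearMap.range
      (T.degQuot O (T.face_subset hV hWV) (hV (ALSetup.mem_of_insert_eq hWV)) hqW W)) :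
    (Submodule.Quotient.mk x : T.NewQuot O hV V) ∈
      Scalar.inertiaIdeal (uRep U) P • (⊤ : Submodule U.R (T.NewQuot O hV V)) := by
  classical
  obtain ⟨_, -⟩ := T.free_newQuot hV subset_rfl hcube
  obtain ⟨_, -⟩ := T.free_newQuot (T.face_subset hV hWV) subset_rfl hcubeW
  have hfinR : Module.Finite U.R (T.NewQuot O hV V) := Module.Finite.of_restrictScalars_finite O _ _
  have hU := isPair_universal U
  have h2R : (2 : U.R) ∈ maximalIdeal U.R := by
    rw [← toResidue_eq_zero_iff U.instIsLocalHom U.residue_surjective, map_ofNat]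
    exact CharTwo.two_eq_zero
  set I := Scalar.inertiaIdeal (uRep U) P with hIdef
  -- residual data
  have hD0 : 0 < E.D := by have := E.mod_eight; omega
  obtain ⟨g, hg, hg1⟩ := Selmer.exists_order_three hr hD0
  have htφ : Selmer.IsTransp D.rbar φ⁻¹ := by
    have h1 : ¬ Selmer.IsTransp D.rbar (φ * φ⁻¹) := fun h1 => h1.2 (by rw [mul_inv_cancel, map_one])
    rw [Selmer.transp_mul_iff hr, not_not] at h1
    exact h1.mp ⟨htr, hne⟩
  have hgφ : Selmer.IsTransp D.rbar (g * φ⁻¹) := by
    rw [Selmer.transp_mul_iff hr]; tauto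
  have htrg := Selmer.trace_eq_one hr hD0 hg hg1
  -- it is enough to work modulo `2 ^ n` for every `n`
  suffices key : ∀ n : ℕ, (Submodule.Quotient.mk x : T.NewQuot O hV V) ∈
      (I ⊔ Ideal.span {(2 : U.R) ^ n}) • (⊤ : Submodule U.R (T.NewQuot O hV V)) by
    let S := I • (⊤ : Submodule U.R (T.NewQuot O hV V))
    refine (Submodule.Quotient.mk_eq_zero S).mp (eq_zero_of_mem_smul_pow (O := U.R) fun n => ?_)
    have h := Submodule.mem_map_of_mem (f := S.mkQ) (key n)
    rw [Submodule.sup_smul, Submodule.map_sup, Submodule.mkQ_map_self, bot_sup_eq,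
      Submodule.map_smul''] at h
    refine Submodule.smul_mono ?_ le_top h
    rw [Ideal.span_singleton_le_iff_mem]
    exact Ideal.pow_mem_pow h2R n
  intro n
  let a : O := 2 ^ n
  obtain ⟨k, hka', hk'⟩ := exists_pow_bound _ (T.degQuot_injective hχ (T.face_subset hV hWV)
    (hV (ALSetup.mem_of_insert_eq hWV)) hqW subset_rfl hcubeW) (a := a) (pow_ne_zero n two_ne_zero)
  have hle : Ideal.span {(2 : O) ^ k} ≤ maximalIdeal O ^ k := by
    rw [Ideal.span_le, Set.singleton_subset_iff]
    exact Ideal.pow_mem_pow T.two k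
  have hka := hle.trans hka'
  have hk := fun m hm => hk' m (Submodule.smul_mono hle le_rfl hm)
  obtain ⟨N₀, hN₀⟩ : ∃ N₀, maximalIdeal O ^ N₀ ≤ Ideal.span {(2 : O) ^ k} := by
    obtain ⟨ϖ, hϖ⟩ := IsDiscreteValuationRing.exists_irreducible O
    obtain ⟨i, hi⟩ :=
      IsDiscreteValuationRing.associated_pow_irreducible (pow_ne_zero k (two_ne_zero (α := O))) hϖ
    refine ⟨i, le_of_eq ?_⟩
    rw [hϖ.maximalIdeal_eq, Ideal.span_singleton_pow, Ideal.span_singleton_eq_span_singleton]
    exact hi.symm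
  obtain ⟨f, hf, hcomm, hrel⟩ := exists_actMod T hV hχ hSfin U hspan S₀ h2 hτ hα hN₀
    (two_pow_smul_span O k)
  let Ak := O ⧸ Ideal.span {(2 : O) ^ k}
  let π := T.quotMap hV V (Ideal.span {(2 : O) ^ k}).mkQ
  have hπ : Function.Surjective π := T.quotMap_mkQ_surjective hV V _
  have : Module.Finite O (T.NewQuot Ak hV V) := Module.Finite.of_surjective π hπ
  let _ : Module U.R (T.NewQuot Ak hV V) :=
    Module.compHom _ (f : U.R →+* Module.End O (T.NewQuot Ak hV V))
  have hsmul : ∀ (r : U.R) (z : T.NewQuot Ak hV V), r • z = f r z := fun _ _ => rfl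
  let πR : T.NewQuot O hV V →ₗ[U.R] T.NewQuot Ak hV V :=
    { toFun := π
      map_add' := π.map_add
      map_smul' := fun r z => (hf r z).symm }
  have : Module.Finite U.R (T.NewQuot Ak hV V) := Module.Finite.of_surjective πR hπ
  let J : Ideal U.R := I ⊔ Ideal.span {(2 : U.R) ^ n}
  let gal := T.quotGal hχ (two_pow_smul_span O k) hV V
  have htrace : ∀ τ, toResidue U.instIsLocalHom U.residue_surjective (Matrix.trace (uRep U τ))
      = (D.rbar τ).trace := fun τ => by
    rw [← DFunLike.congr_fun hU.isDef.reduces τ, AddMonoidHom.map_trace]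
    rfl
  have hmon : ∀ z, gal σ₀ z - z ∈ J • (⊤ : Submodule U.R (T.NewQuot Ak hV V)) := fun z =>
    Submodule.smul_mono le_sup_left le_rfl (quotGal_sub_mem T hV hχ (two_pow_smul_span O k) U hcomm
        hrel hr
      (Fact.out : q.Prime) hqD hP (g := g) (f := φ⁻¹) (by rw [htrg]; exact one_ne_zero) htφ.1
      hgφ.1 hσ₀ z)
  let act : GQ →* Module.End U.R (T.NewQuot Ak hV V) :=
    { toFun := fun τ =>
        { toFun := gal τ
          map_add' := map_add _
          map_smul' := hcomm τ }
      map_one' := LinearMap.ext fun z => by simp [gal]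
      map_mul' := fun a b => LinearMap.ext fun z => LinearMap.congr_fun (map_mul gal a b) z }
  let M : AddSubgroup (T.signed Ak hV) :=
    (J • (⊤ : Submodule U.R (T.NewQuot Ak hV V))).toAddSubgroup.comap
      (T.oldSpace Ak hV V).mkQ.toAddMonoidHom
  -- the relations of the residual image are nilpotent
  obtain ⟨N, hN⟩ : ∃ N, ∀ r ∈ maximalIdeal U.R ^ N, ∀ z : T.NewQuot Ak hV V, r • z = 0 := by
    obtain ⟨N, hN⟩ := exists_pow_act f N₀
    refine ⟨N, fun r hr' z => ?_⟩
    rw [hsmul]
    obtain ⟨w, hw, hwz⟩ : ∃ w ∈ Ideal.span {(2 : O) ^ k} • (⊤ : Submodule O (T.NewQuot O hV V)),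
        π w = f r z := by
      have h1 : f r z ∈ (Ideal.span {(2 : O) ^ k} • (⊤ : Submodule O (T.NewQuot O hV V))).map π :=
          by
        rw [Submodule.map_smul'', Submodule.map_top, LinearMap.range_eq_top.mpr hπ]
        exact Submodule.smul_mono hN₀ le_rfl (hN r hr' z)
      exact h1
    rw [← hwz]
    exact (T.quotMap_mkQ_eq_zero_iff hV V _ w).mpr hw
  let Φ := Module.toAddMonoidEnd (Module.End U.R (T.NewQuot Ak hV V)) (T.NewQuot Ak hV V)
  have hΦ : ∀ τ, Φ (act τ) = T.quotGalEnd hχ (two_pow_smul_span O k) hV V τ :=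
    fun τ => AddMonoidHom.ext fun z => rfl
  have hnil : ∀ e : Module.End U.R (T.NewQuot Ak hV V),
      (∀ z, e z ∈ maximalIdeal U.R • (⊤ : Submodule U.R (T.NewQuot Ak hV V))) →
      IsNilpotent (Φ e) := fun e he => (isNilpotent_of_range_le hN e he).map Φ
  have hquad : ∀ τ z, act τ (act τ z)
      = Matrix.trace (uRep U τ) • act τ z - (uRep U τ).det • z := fun τ z => by
    have h1 := hrel τ z
    rw [sub_add, sub_eq_zero] at h1
    exact h1
  have hdetm : ∀ τ, (uRep U τ).det - 1 ∈ maximalIdeal U.R := fun τ => by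
    rw [← toResidue_eq_zero_iff U.instIsLocalHom U.residue_surjective, map_sub, map_one,
        sub_eq_zero]
    refine Eq.trans ?_ (hr.det_one τ)
    rw [← DFunLike.congr_fun hU.isDef.reduces τ]
    exact RingHom.map_det _ _
  have hinv : ∀ τ, (D.rbar τ).trace = 0 → IsNilpotent (Φ (act τ * act τ - 1)) := fun τ hτ0 =>
    hnil _ fun z => by
      rw [LinearMap.sub_apply, Module.End.mul_apply, Module.End.one_apply, hquad,
        show Matrix.trace (uRep U τ) • act τ z - (uRep U τ).det • z - z
          = Matrix.trace (uRep U τ) • act τ z - (((uRep U τ).det - 1) + 2) • z by module]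
      exact sub_mem (Submodule.smul_mem_smul ((toResidue_eq_zero_iff U.instIsLocalHom
          U.residue_surjective).mp ((htrace τ).trans hτ0)) Submodule.mem_top)
        (Submodule.smul_mem_smul (add_mem (hdetm τ) h2R) Submodule.mem_top)
  obtain ⟨R⟩ := hrows k
  obtain ⟨κ, hκΘ⟩ := hΘ k
  -- the coefficient change of the class
  have hmem : T.signedMap hV (Ideal.span {(2 : O) ^ k}).mkQ x ∈ M := by
    refine T.mem_of_trace_mem_range hχ (two_pow_smul_span O k) hS hV hqW hWV R
      (fun y hy => T.exists_norm_eq (T.face_subset hV hWV) _ hy)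
      (fun b _ y hy => T.exists_norm_eq _ _ hy) (fun y hy => T.norm_eq_zero _ _ hy) M
      (fun o ho => ?_) (fun y => ?_) (d := 2 ^ n) (fun y => ?_) (fun u hu => ?_)
      (fun σ y hy => ?_) (htrGal k) (fun y hy => T.exists_norm_eq hV _ hy) κ hκΘ (g := g)
      ?_ ?_ ?_ ?_ _ ?_
    · show (T.oldSpace Ak hV V).mkQ o ∈ J • (⊤ : Submodule U.R (T.NewQuot Ak hV V))
      rw [show (T.oldSpace Ak hV V).mkQ o = 0 from (Submodule.Quotient.mk_eq_zero _).mpr ho]
      exact zero_mem _
    · show (T.oldSpace Ak hV V).mkQ (_ - y) ∈ J • (⊤ : Submodule U.R (T.NewQuot Ak hV V))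
      rw [map_sub]
      exact hmon ((T.oldSpace Ak hV V).mkQ y)
    · show (T.oldSpace Ak hV V).mkQ (2 ^ n • y) ∈ J • (⊤ : Submodule U.R (T.NewQuot Ak hV V))
      rw [map_nsmul, ← Nat.cast_smul_eq_nsmul U.R, Nat.cast_pow, Nat.cast_ofNat]
      exact Submodule.smul_mem_smul (Ideal.mem_sup_right (Ideal.mem_span_singleton_self _))
        Submodule.mem_top
    · obtain ⟨m, rfl⟩ := T.quotMap_mkQ_surjective (T.face_subset hV hWV) W
          (Ideal.span {(2 : O) ^ k}) u
      rw [← T.quotMap_degQuot, T.quotMap_mkQ_eq_zero_iff] at hu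
      obtain ⟨m', hm', rfl⟩ : ∃ m', m' ∈ (⊤ : Submodule O (T.NewQuot O (T.face_subset hV hWV) W))
          ∧ a • m' = m := by
        have h1 := hk m hu
        rwa [Submodule.ideal_span_singleton_smul, Submodule.mem_smul_pointwise_iff_exists] at h1
      refine ⟨T.quotMap (T.face_subset hV hWV) W (Ideal.span {(2 : O) ^ k}).mkQ m', ?_⟩
      rw [map_smul, ← Nat.cast_smul_eq_nsmul O, Nat.cast_pow, Nat.cast_ofNat]
    · show (T.oldSpace Ak hV V).mkQ _ ∈ J • (⊤ : Submodule U.R (T.NewQuot Ak hV V))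
      exact Submodule.smul_mono le_rfl le_top (show act σ _ ∈ J • Submodule.map (act σ) ⊤ by
        rw [← Submodule.map_smul'']
        exact ⟨(T.oldSpace Ak hV V).mkQ y, hy, rfl⟩)
    · have h1 := hnil ((2 : U.R) • 1) fun z => Submodule.smul_mem_smul h2R Submodule.mem_top
      rwa [show Φ ((2 : U.R) • 1) = 2 by
        rw [show ((2 : U.R) • 1 : Module.End U.R (T.NewQuot Ak hV V)) = 2 by
          rw [two_smul, one_add_one_eq_two], map_ofNat]] at h1
    · have h1 := hnil (act g * act g + act g + 1) fun z => by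
        rw [LinearMap.add_apply, LinearMap.add_apply, Module.End.mul_apply, Module.End.one_apply,
          hquad, show Matrix.trace (uRep U g) • act g z - (uRep U g).det • z + act g z + z
            = (Matrix.trace (uRep U g) + 1) • act g z - ((uRep U g).det - 1) • z by module]
        refine sub_mem (Submodule.smul_mem_smul ?_ Submodule.mem_top)
          (Submodule.smul_mem_smul (hdetm g) Submodule.mem_top)
        rw [← toResidue_eq_zero_iff U.instIsLocalHom U.residue_surjective, map_add, map_one, htrace,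
          htrg, CharTwo.add_self_eq_zero]
      rwa [map_add, map_add, map_mul, map_one, hΦ] at h1
    · have h1 := hinv _ htφ.1
      rwa [map_sub, map_mul, map_one, hΦ] at h1
    · have h1 := hinv _ hgφ.1
      rwa [map_sub, map_mul, map_one, hΦ, map_mul] at h1
    · obtain ⟨y, hy⟩ := hx
      refine ⟨T.quotMap (T.face_subset hV hWV) W (Ideal.span {(2 : O) ^ k}).mkQ y, ?_⟩
      rw [← T.quotMap_degQuot, hy]
      exact congrArg Submodule.Quotient.mk (T.signedMap_down hS hV hqW hWV _ x)
  -- lift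
  have h1 : πR (Submodule.Quotient.mk x) ∈
      (J • (⊤ : Submodule U.R (T.NewQuot O hV V))).map πR := by
    rw [Submodule.map_smul'', Submodule.map_top,
      (LinearMap.range_eq_top (f := πR)).mpr hπ]
    exact hmem
  obtain ⟨j, hj, hje⟩ := h1
  have h2' : (Submodule.Quotient.mk x : T.NewQuot O hV V) - j ∈
      Ideal.span {(2 : O) ^ k} • (⊤ : Submodule O (T.NewQuot O hV V)) := by
    rw [← T.quotMap_mkQ_eq_zero_iff, map_sub, sub_eq_zero]
    exact hje.symm
  have h3 := Submodule.smul_mono hka (le_refl (⊤ : Submodule O (T.NewQuot O hV V))) h2'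
  rw [Submodule.ideal_span_singleton_smul, Submodule.mem_smul_pointwise_iff_exists] at h3
  obtain ⟨m', -, hm'⟩ := h3
  rw [← sub_add_cancel (Submodule.Quotient.mk x : T.NewQuot O hV V) j]
  refine add_mem ?_ hj
  rw [← hm', show a • m' = ((2 : U.R) ^ n) • m' by
    rw [← algebraMap_smul U.R a m', map_pow, map_ofNat]]
  exact Submodule.smul_mem_smul (Ideal.mem_sup_right (Ideal.mem_span_singleton_self _))
    Submodule.mem_top

end Descend

end Fermat.Agent.TwoAdic
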