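import Fermat.Agent.TwoAdic.Geometry.Bridge.Frobenius

/-!
The Eichler–Shimura relation on the modules of a setup with the operator at any prime not dividing
the level, inside or outside `S`.
-/

set_option autoImplicit false

noncomputable section

open CongruenceSubgroup
open scoped MatrixGroups
open AlgebraicCurve ModularCurve

universe uA

namespace Fermat.Agent.TwoAdic.Bridge

open HeckeJ0 HeckeModule EigenSystems

attribute [local instance] ALSetup.isPrime

local notation "ℚbar" => AlgebraicClosure ℚ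

/-- The Hecke operator at any prime on classes. -/
theorem X_smul_torsLoc {O : Type} [CommRing O] {A : Type uA} [AddCommGroup A] [Module O A]
    {N : ℕ} [NeZero N] {n : ℕ} [NeZero n] {ρ : Representation O (ZMod N)ˣ A}
    (hρ : ∀ u, ρ u = 1) (m : Submonoid (HeckePoly O)) {l : ℕ} (hl : l.Prime) (ι : ZMod n →+ A)
    (x : Pic0.torsion ℚbar (modularFunctionFieldBar N) n) (s : m) :
    (MvPolynomial.X (⟨l, hl⟩ : Nat.Primes) : HeckePoly O) • torsLoc hρ m ι x s =
      torsLoc hρ m ι (heckeTors N n ⟨l, hl⟩ x) s := by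
  have : Fact (((⟨l, hl⟩ : Nat.Primes) : ℕ)).Prime := ⟨hl⟩
  have : NeZero (((⟨l, hl⟩ : Nat.Primes) : ℕ)) := ⟨hl.ne_zero⟩
  rw [torsLoc, torsLoc, LocalizedModule.smul'_mk,
    torsClass_heckeBar hρ ι ⟨l, hl⟩ x _ (coe_heckeTors _ x)]
  exact congrArg (LocalizedModule.mk · s) (X_smul ρ l _)

variable {O : Type} [CommRing O] [IsLocalRing O] (T : ALSetup O) {A : Type uA} [AddCommGroup A]
  [Module O A] (hχ : T.χ = 1) {V : Finset ℕ} (hV : V ⊆ T.W) [NeZero (T.level V)]
  {p k : ℕ} [Fact p.Prime] (hA : ∀ a : A, p ^ k • a = 0)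

/-- The Eichler–Shimura relation with `X_l`, `l` any prime not dividing the level. -/
theorem setupGal_frobeniusX (hes : EigenRep.EichlerShimuraRelations (T.level V) p) {l : ℕ}
    (hl : l.Prime) (hlN : ¬ l ∣ T.level V * p) {B : ValuationSubring ℚbar}
    (hB : B.LiesOverPrime l) {σ : ℚbar ≃ₐ[ℚ] ℚbar} (hσ : B.IsFrobeniusAt σ l) (z : T.H V A) :
    setupGal T hχ hV hA σ (setupGal T hχ hV hA σ z) -
      (MvPolynomial.X (⟨l, hl⟩ : Nat.Primes) : HeckePoly O) • setupGal T hχ hV hA σ z + l • z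
        = 0 := by
  let g := setupGal T hχ hV hA σ
  let H : T.H V A →+ T.H V A := AddMonoidHom.mk'
    (fun z => g (g z) - (MvPolynomial.X (⟨l, hl⟩ : Nat.Primes) : HeckePoly O) • g z + l • z)
    fun y z => by simp only [map_add, smul_add, nsmul_add]; abel
  refine (DFunLike.congr_fun (setup_ext T hχ hV hA (F := H) (G := 0) fun ι x s => ?_) z : _)
  show g (g _) - (MvPolynomial.X (⟨l, hl⟩ : Nat.Primes) : HeckePoly O) • g _ + l • _ = 0
  simp only [g, setupGal_setupClass]
  have hcls : ∀ y, setupClass T hχ ι y s =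
      torsLoc (trivial_rep (T.dvd_level V) hχ) (awayMonoid T.m) ι y s := fun y => by
    unfold setupClass; rfl
  rw [hcls, hcls, hcls, X_smul_torsLoc, ← torsLoc_nsmul]
  have hrel : galTors (T.level V) (p ^ k) σ (galTors (T.level V) (p ^ k) σ x) + l • x =
      heckeTors (T.level V) (p ^ k) ⟨l, hl⟩ (galTors (T.level V) (p ^ k) σ x) := by
    refine Subtype.ext ?_
    refine Eq.trans ?_ ((coe_heckeTors (n := p ^ k) (⟨l, hl⟩ : Nat.Primes)
      (galTors (T.level V) (p ^ k) σ x)).trans
        (congrArg (heckeOperatorBar (T.level V) ⟨l, hl⟩) (coe_galTors σ x))).symm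
    rw [AddSubgroup.coe_add, AddSubgroupClass.coe_nsmul, coe_galTors, coe_galTors,
      ← sub_eq_zero, add_sub_right_comm]
    exact hes.frobenius l hl hlN B hB σ hσ (x : JZero (T.level V))
      (EigenRep.exists_pow_nsmul_eq_zero x)
  rw [sub_add_eq_add_sub, sub_eq_zero, ← torsLoc_add, hrel]

end Fermat.Agent.TwoAdic.Bridge
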