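import Fermat.Agent.TwoAdic.Descend.GaloisPair
import Fermat.Agent.TwoAdic.Descend.FrobX
import Fermat.Agent.TwoAdic.Descend.Coefficients

/-!
On the new quotient of a face without `q` the trace of Frobenius at `q` of the universal pair is
`T_q`: the input `hu` of the descent.
-/

set_option autoImplicit false
-- the linter alone takes seconds on the proof terms of this file
set_option linter.unusedSectionVars false

noncomputable section

open IsLocalRing GaloisRep CongruenceSubgroup Fermat.Agent.DefRing Fermat.Agent.Deform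

namespace Fermat.Agent.TwoAdic

open HeckeJ0 LevelRaising HeckeModule

attribute [local instance] ALSetup.isPrime

namespace ALSetup

variable {O : Type} [CommRing O] [IsLocalRing O] (T : ALSetup O) {A : Type} [AddCommGroup A]
  [Module O A] {p k : ℕ} [Fact p.Prime] {V : Finset ℕ} {q : ℕ} [hq : Fact q.Prime]

/-- The degree operator on the image of Frobenius at `q`. -/
theorem degQuot_quotGal_frobenius (hχ : T.χ = 1) (hA : ∀ a : A, p ^ k • a = 0) (hV : V ⊆ T.W)
    [NeZero (T.level V)] (hqW : q ∈ T.W) (hqV : q ∉ V) (B : Finset ℕ)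
    (hes : EigenRep.EichlerShimuraRelations (T.level V) p) (hqN : ¬ q ∣ T.level V * p)
    {P : ValuationSubring (AlgebraicClosure ℚ)} (hP : P.LiesOverPrime q)
    {φ : AlgebraicClosure ℚ ≃ₐ[ℚ] AlgebraicClosure ℚ} (hφ : P.IsFrobeniusAt φ q)
    (z : T.NewQuot A hV B) :
    T.degQuot A hV hqW hqV B (T.quotGal hχ hA hV B φ z)
      = ((q : O) + 1) • T.quotGal hχ hA hV B φ z
        + T.twistConst hqW • (T.quotGal hχ hA hV B φ (T.quotGal hχ hA hV B φ z) + q • z) := by
  obtain ⟨x, rfl⟩ := Submodule.mkQ_surjective _ z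
  have h := Bridge.setupGal_frobeniusX T hχ hV hA hes hq.out hqN hP hφ (x : T.H V A)
  rw [sub_add_eq_add_sub, sub_eq_zero] at h
  rw [Submodule.mkQ_apply, quotGal_mk, quotGal_mk, degQuot_mk, ← Submodule.Quotient.mk_smul,
    ← Submodule.Quotient.mk_smul, ← Submodule.Quotient.mk_add, ← Submodule.Quotient.mk_smul,
    ← Submodule.Quotient.mk_add]
  refine congrArg Submodule.Quotient.mk (Subtype.ext ?_)
  rw [Submodule.coe_add, Submodule.coe_smul, Submodule.coe_smul, Submodule.coe_add,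
    Submodule.coe_smul_of_tower, coe_signedGal, coe_signedGal, coe_signedGal, h]
  exact T.degOp_apply hqW _

end ALSetup

namespace Descend

open Pair

variable {O : Type} [CommRing O] [IsDomain O] [IsDiscreteValuationRing O]
  [IsAdicComplete (maximalIdeal O) O] [Finite (ResidueField O)] [CharP (ResidueField O) 2]
  {D : NormalData O} {E : LiftData} {Q : Finset ℕ} {C : Set (GQ × GQ)}
  {h : IsResidualPair D E Q C} (T : ALSetup O) {V B : Finset ℕ} (hV : V ⊆ T.W)

omit [CharP (ResidueField O) 2] in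
/-- The degree operator at `q` is `(q + 1) + c tr ρ(φ)`. -/
theorem degQuot_eq_trace [Fact (Nat.Prime 2)] (hχ : T.χ = 1) (hSfin : T.S.Finite)
    (U : (pairFunctor h).UniversalPoint)
    (hspan : Submodule.span (ResidueField O) (Set.range D.rbar) = ⊤)
    [Module U.R (T.NewQuot O hV B)] [IsScalarTower O U.R (T.NewQuot O hV B)]
    [Module.Finite O (T.NewQuot O hV B)]
    (S₀ : Finset ℕ) (h2 : 2 ∉ T.S)
    (hτ : ∀ (ℓ : ℕ) (hℓ : ℓ.Prime) (hℓS : ℓ ∉ T.S), ℓ ∉ S₀ →
      ∀ P : ValuationSubring (AlgebraicClosure ℚ), P.LiesOverPrime ℓ →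
        ∀ σ : GQ, P.IsFrobeniusAt σ ℓ → ∀ m : T.NewQuot O hV B,
          Matrix.trace (uRep U σ) • m = T.newAct O hV B (awayX O hℓ hℓS) m)
    (hα : ∀ m : T.NewQuot O hV B,
      T.newAct O hV B (awayX O Nat.prime_two h2) (uRoot U • m)
        = uRoot U • uRoot U • m + (2 : O) • m)
    {q : ℕ} [hq : Fact q.Prime] (hq2 : q ≠ 2) (hqW : q ∈ T.W) (hqV : q ∉ V)
    {P : ValuationSubring (AlgebraicClosure ℚ)} (hP : P.LiesOverPrime q) {φ : GQ}
    (hφ : P.IsFrobeniusAt φ q) (m : T.NewQuot O hV B) :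
    T.degQuot O hV hqW hqV B m
      = ((q : O) + 1) • m + T.twistConst hqW • Matrix.trace (uRep U φ) • m := by
  have : NeZero (T.level V) := ⟨T.level_ne_zero hV⟩
  have hqN : ¬ q ∣ T.level V * 2 := fun hd =>
    (hq.out.dvd_mul.mp hd).elim (T.not_dvd_level hV hqW hqV)
      fun h => hq2 ((Nat.prime_dvd_prime_iff_eq hq.out Nat.prime_two).mp h)
  refine sub_eq_zero.mp (eq_zero_of_mem_smul_pow (O := O) fun k => ?_)
  obtain ⟨f, hf, -, hrel⟩ := exists_actMod T hV hχ hSfin U hspan S₀ h2 hτ hα (le_refl _)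
    (two_pow_smul_mod T k)
  rw [← T.quotMap_mkQ_eq_zero_iff, map_sub, sub_eq_zero, T.quotMap_degQuot, map_add, map_smul,
    map_smul, ← hf]
  generalize T.quotMap hV B (maximalIdeal O ^ k).mkQ m = w
  obtain ⟨z, rfl⟩ : ∃ z, T.quotGal hχ (two_pow_smul_mod T k) hV B φ z = w := by
    refine ⟨T.quotGal hχ (two_pow_smul_mod T k) hV B φ⁻¹ w, ?_⟩
    rw [← Module.End.mul_apply, ← map_mul, mul_inv_cancel, map_one, Module.End.one_apply]
  rw [T.degQuot_quotGal_frobenius hχ (two_pow_smul_mod T k) hV hqW hqV B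
    (SemistableRed.allRelations _ 2) hqN hP hφ z]
  have h1 := hrel φ z
  rw [((det_away (isPair_universal U) hq.out hq2 hP).2 φ hφ), map_natCast,
    Module.End.natCast_apply, sub_add_eq_add_sub, sub_eq_zero] at h1
  rw [h1]

/-- **The element `u` of the descent is the degree operator.** -/
theorem traceElt_smul_eq [Fact (Nat.Prime 2)] (hχ : T.χ = 1) (hSfin : T.S.Finite)
    (U : (pairFunctor h).UniversalPoint)
    (hspan : Submodule.span (ResidueField O) (Set.range D.rbar) = ⊤)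
    [Module U.R (T.NewQuot O hV B)] [IsScalarTower O U.R (T.NewQuot O hV B)]
    [Module.Finite O (T.NewQuot O hV B)]
    (S₀ : Finset ℕ) (h2 : 2 ∉ T.S)
    (hτ : ∀ (ℓ : ℕ) (hℓ : ℓ.Prime) (hℓS : ℓ ∉ T.S), ℓ ∉ S₀ →
      ∀ P : ValuationSubring (AlgebraicClosure ℚ), P.LiesOverPrime ℓ →
        ∀ σ : GQ, P.IsFrobeniusAt σ ℓ → ∀ m : T.NewQuot O hV B,
          Matrix.trace (uRep U σ) • m = T.newAct O hV B (awayX O hℓ hℓS) m)
    (hα : ∀ m : T.NewQuot O hV B,
      T.newAct O hV B (awayX O Nat.prime_two h2) (uRoot U • m)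
        = uRoot U • uRoot U • m + (2 : O) • m)
    {q : ℕ} [hq : Fact q.Prime] (hq2 : q ≠ 2) (hqW : q ∈ T.W) (hqV : q ∉ V)
    {P : ValuationSubring (AlgebraicClosure ℚ)} (hP : P.LiesOverPrime q) {φ : GQ}
    (hφ : P.IsFrobeniusAt φ q) {s : ℤ} (hs : (s : O) = -T.c q) (m : T.NewQuot O hV B) :
    ((uRep U φ).trace - (s : U.R) * ((q : U.R) + 1)) • m
      = T.c q • T.degQuot O hV hqW hqV B m := by
  have hc : T.twistConst hqW = T.c q := by
    simp [ALSetup.twistConst, hχ]
  have hc2 : T.c q * T.c q = 1 := by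
    have h1 := T.sq q hqW (T.coprime_M hqW)
    simpa [hχ, sq] using h1
  rw [degQuot_eq_trace T hV hχ hSfin U hspan S₀ h2 hτ hα hq2 hqW hqV hP hφ m, hc, smul_add,
    smul_smul (T.c q), smul_smul (T.c q) (T.c q), hc2, one_smul, sub_smul,
    show (s : U.R) * ((q : U.R) + 1) = algebraMap O U.R ((s : O) * ((q : O) + 1)) by
      rw [map_mul, map_intCast, map_add, map_natCast, map_one],
    algebraMap_smul, hs, neg_mul, neg_smul, sub_neg_eq_add, add_comm]

end Descend

end Fermat.Agent.TwoAdic
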