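import Fermat.Agent.TwoAdic.Descend.Loop
import Fermat.Agent.TwoAdic.Descend.Trace
import Fermat.Agent.TwoAdic.Descend.MonodromyKernel

/-!
The descent loop with the Galois inputs discharged: it only asks for the operators as traces and the
rows at the primes left out at every torsion level.
-/

set_option autoImplicit false

noncomputable section

open IsLocalRing GaloisRep CongruenceSubgroup Fermat.Agent.DefRing Fermat.Agent.Deform

namespace Fermat.Agent.TwoAdic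

open HeckeJ0 LevelRaising HeckeModule

attribute [local instance] ALSetup.isPrime

namespace Descend

open Pair

variable {O : Type} [CommRing O] [IsDomain O] [IsDiscreteValuationRing O] [CharZero O]
  [IsAdicComplete (maximalIdeal O) O] [Finite (ResidueField O)] [CharP (ResidueField O) 2]
  {D : NormalData O} (E : LiftData) {Q : Finset ℕ} {C : Set (GQ × GQ)}
  (T : ALSetup O) (V₀ : Finset ℕ)

open Classical in
/-- The operators of the loop. -/
def loopOp (ℓ : ℕ) : AwayPoly O T.S :=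
  if h : ℓ.Prime ∧ ℓ ∉ T.S then awayX O h.1 h.2 else 0

/-- **Descent to no auxiliary prime**, given the traces and the rows. -/
theorem descent_assembled [Fact (Nat.Prime 2)] (hr : IsDihedralResidual E.D D.rbar)
    (hspan : Submodule.span (ResidueField O) (Set.range D.rbar) = ⊤)
    (hS : T.CoreInS) (hχ : T.χ = 1) (hV : V₀ ∪ E.aux ⊆ T.W)
    (hdisj : ∀ q ∈ E.aux, q ∉ V₀ ∧ q ∉ Q)
    (P : ℕ → ValuationSubring (AlgebraicClosure ℚ)) (φ σ₀ : ℕ → GQ)
    (hP : ∀ q ∈ E.aux, (P q).LiesOverPrime q ∧ (P q).IsFrobeniusAt (φ q) q ∧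
      (D.rbar (φ q)).trace = 0 ∧ D.rbar (φ q) ≠ 1 ∧ σ₀ q ∈ (P q).inertiaSubgroupIn ℚ)
    (hsign : ∀ q ∈ E.aux, (E.sgn q : O) = -T.c q)
    (hihara : ∀ (q : ℕ) (S : Stage E), q ∈ S.1 → q.Prime →
      IharaPrimes (awayMonoid T.m) (T.level (V₀ ∪ (S.erase q).1)) q 2)
    (hcube : T.CubeInjective hV (V₀ ∪ E.aux))
    (h : ∀ S : Stage E, IsResidualPair D S.data Q C)
    (U : ∀ S : Stage E, (pairFunctor (h S)).UniversalPoint)
    [∀ S : Stage E, Module (U S).R (T.NewQuot O (stage_subset E T V₀ hV S) (V₀ ∪ S.1))]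
    [∀ S : Stage E, IsScalarTower O (U S).R (T.NewQuot O (stage_subset E T V₀ hV S) (V₀ ∪ S.1))]
    (hSfin : T.S.Finite) (h2 : 2 ∉ T.S) (S₀ : Finset ℕ) (hS₀ : ∀ ℓ ∈ T.S, ℓ.Prime → ℓ ∈ S₀)
    (hτ : ∀ (S : Stage E) (ℓ : ℕ) (hℓ : ℓ.Prime) (hℓS : ℓ ∉ T.S), ℓ ∉ S₀ →
      ∀ P' : ValuationSubring (AlgebraicClosure ℚ), P'.LiesOverPrime ℓ →
        ∀ σ : GQ, P'.IsFrobeniusAt σ ℓ →
        ∀ m : T.NewQuot O (stage_subset E T V₀ hV S) (V₀ ∪ S.1),
          Matrix.trace (uRep (U S) σ) • m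
            = T.newAct O (stage_subset E T V₀ hV S) (V₀ ∪ S.1) (awayX O hℓ hℓS) m)
    (hα : ∀ (S : Stage E) (m : T.NewQuot O (stage_subset E T V₀ hV S) (V₀ ∪ S.1)),
      T.newAct O (stage_subset E T V₀ hV S) (V₀ ∪ S.1) (awayX O Nat.prime_two h2)
          (uRoot (U S) • m)
        = uRoot (U S) • uRoot (U S) • m + (2 : O) • m)
    (hgeo : ∀ (q : ℕ) [Fact q.Prime] (S : Stage E) (hqV : q ∉ V₀ ∪ (S.erase q).1) (hq : q ∈ S.1)
      [NeZero (T.level (V₀ ∪ S.1))] [NeZero (T.level (V₀ ∪ (S.erase q).1))] (k : ℕ),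
      Nonempty (T.KernelRows hχ (two_pow_smul_span O k) hS (stage_subset E T V₀ hV S) hqV
          (insert_union_erase V₀ hq) (σ₀ q) (φ q)) ∧
      (∃ κ : ℤ, ∀ x, T.monodromyAt hχ (two_pow_smul_span O k) (stage_subset E T V₀ hV S) (σ₀ q)
        (Bridge.setupGal T hχ (stage_subset E T V₀ hV S) (two_pow_smul_span O k) (φ q) x
          + κ • T.w (O ⧸ Ideal.span {(2 : O) ^ k}) (stage_subset E T V₀ hV S) q x) = 0) ∧
      ∀ σ x, T.tr (O ⧸ Ideal.span {(2 : O) ^ k}) hS (stage_subset E T V₀ hV S) hqV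
          (insert_union_erase V₀ hq)
          (Bridge.setupGal T hχ (stage_subset E T V₀ hV S) (two_pow_smul_span O k) σ x)
        = Bridge.setupGal T hχ (stage_subset E T V₀ hV (S.erase q)) (two_pow_smul_span O k) σ
            (T.tr (O ⧸ Ideal.span {(2 : O) ^ k}) hS (stage_subset E T V₀ hV S) hqV
              (insert_union_erase V₀ hq) x))
    (hci : IsFiniteCI O (U ⟨E.aux, subset_rfl⟩).R)
    (β : Module.Basis (Fin 2) (U ⟨E.aux, subset_rfl⟩).R
      (T.NewQuot O (stage_subset E T V₀ hV ⟨E.aux, subset_rfl⟩) (V₀ ∪ E.aux)))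
    (S : Stage E) :
    IsFiniteCI O (U S).R ∧ Nonempty
      (Module.Basis (Fin 2) (U S).R (T.NewQuot O (stage_subset E T V₀ hV S) (V₀ ∪ S.1))) := by
  have hcub : ∀ S : Stage E, T.CubeInjective (stage_subset E T V₀ hV S) (V₀ ∪ S.1) := fun S =>
    hcube.mono (Finset.union_subset_union_right S.2)
  refine descent_loop E T V₀ hr hspan hS hχ hV hdisj P φ
    (fun q hq => ⟨(hP q hq).1, (hP q hq).2.1, (hP q hq).2.2.1, (hP q hq).2.2.2.1⟩) hihara hcube h U
    S₀ (loopOp T) (awayX O Nat.prime_two h2) (fun S ℓ hℓ hℓ0 => ?_) hα T.c (fun q hq => ?_)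
    (fun q _ S hqW hqV hq m => ?_) (fun q _ S hqV hq x hx => ?_) hci β S
  · have hℓS : ℓ ∉ T.S := fun hm => hℓ0 (hS₀ ℓ hm hℓ)
    rw [show loopOp T ℓ = awayX O hℓ hℓS from dif_pos ⟨hℓ, hℓS⟩]
    exact hτ S ℓ hℓ hℓS hℓ0
  · have hqW : q ∈ T.W := hV (Finset.mem_union_right V₀ hq)
    have h1 := T.sq q hqW (T.coprime_M hqW)
    simp only [hχ, MonoidHom.one_apply] at h1
    exact IsUnit.of_mul_eq_one (T.c q) h1
  · obtain ⟨_, -⟩ := T.free_newQuot (stage_subset E T V₀ hV (S.erase q)) subset_rfl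
      (hcub (S.erase q))
    have hqA : q ∈ E.aux := S.2 hq
    exact traceElt_smul_eq T (stage_subset E T V₀ hV (S.erase q)) hχ hSfin (U (S.erase q)) hspan
      S₀ h2 (hτ (S.erase q)) (hα (S.erase q)) (E.aux_spec q hqA).2.1 hqW hqV
      (hP q hqA).1 (hP q hqA).2.1 (hsign q hqA) m
  · have : NeZero (T.level (V₀ ∪ S.1)) := ⟨T.level_ne_zero (stage_subset E T V₀ hV S)⟩
    have : NeZero (T.level (V₀ ∪ (S.erase q).1)) :=
      ⟨T.level_ne_zero (stage_subset E T V₀ hV (S.erase q))⟩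
    have hqA : q ∈ E.aux := S.2 hq
    exact mem_inertiaIdeal_of_trace T hχ hSfin hS (stage_subset E T V₀ hV S) hqV
      (insert_union_erase V₀ hq) (hcub S) (hcub (S.erase q)) (E := S.data) hr
      (E.aux_spec q hqA).2.2 (U S) hspan S₀ h2 (hτ S) (hα S) (hP q hqA).1 (hP q hqA).2.2.1
      (hP q hqA).2.2.2.1 (hP q hqA).2.2.2.2 (fun k => (hgeo q S hqV hq k).1)
      (fun k => (hgeo q S hqV hq k).2.1) (fun k => (hgeo q S hqV hq k).2.2) x hx

end Descend

end Fermat.Agent.TwoAdic
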