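import Mathlib.RingTheory.DiscreteValuationRing.Basic
import Mathlib.RingTheory.Ideal.Quotient.Index
import Mathlib.Algebra.CharP.Lemmas
import Mathlib.Data.ZMod.QuotientRing
import Mathlib.LinearAlgebra.Dimension.Free
import Mathlib.LinearAlgebra.FiniteDimensional.Basic
import Mathlib.Algebra.Module.ZMod
import Mathlib.LinearAlgebra.Basis.VectorSpace
import Mathlib.Algebra.Field.ZMod
import Mathlib.RingTheory.LocalRing.ResidueField.Basic

/-!
`O / 2 ^ k` is a finite free `ℤ / 2 ^ k`-module.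
-/

set_option autoImplicit false

open IsLocalRing

namespace Fermat.Agent.TwoAdic.Descend

/-- The integral span of lifts of a basis modulo `2` in a domain is a basis modulo `2 ^ k`. -/
theorem exists_basis_span_pow_two {O : Type} [CommRing O] [IsDomain O] (h2 : (2 : O) ≠ 0)
    [Finite (O ⧸ Ideal.span {(2 : O)})] (k : ℕ) :
    ∃ n : ℕ, Nonempty (O ⧸ Ideal.span {(2 : O) ^ k} ≃+ (Fin n → ZMod (2 ^ k))) := by
  classical
  let K := O ⧸ Ideal.span {(2 : O)}
  have hK : ∀ x : K, 2 • x = 0 := fun x => by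
    obtain ⟨x, rfl⟩ := Ideal.Quotient.mk_surjective x
    rw [← map_nsmul, Ideal.Quotient.eq_zero_iff_mem, nsmul_eq_mul]
    exact Ideal.mul_mem_right x _ (Ideal.mem_span_singleton_self _)
  let _ : Module (ZMod 2) K := AddCommGroup.zmodModule hK
  have : Module.Finite (ZMod 2) K := Module.Finite.of_finite
  have : Fact (Nat.Prime 2) := ⟨Nat.prime_two⟩
  let bs := Module.finBasis (ZMod 2) K
  let n := Module.finrank (ZMod 2) K
  choose b hb using fun i : Fin n => Ideal.Quotient.mk_surjective (bs i)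
  let s : (Fin n → ℤ) → O := fun c => ∑ i, c i • b i
  have hmk : ∀ c : Fin n → ℤ,
      Ideal.Quotient.mk (Ideal.span {(2 : O)}) (s c) = ∑ i, (c i : ZMod 2) • bs i := fun c => by
    simp only [s, map_sum, map_zsmul, hb, Int.cast_smul_eq_zsmul]
  have hone : ∀ x : O, ∃ c y, x = s c + 2 * y := fun x => by
    refine ⟨fun i => ((bs.repr (Ideal.Quotient.mk _ x) i).val : ℤ), ?_⟩
    have h : x - s (fun i => ((bs.repr (Ideal.Quotient.mk _ x) i).val : ℤ)) ∈
        Ideal.span {(2 : O)} := by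
      rw [← Ideal.Quotient.eq, hmk]
      simp
    obtain ⟨y, hy⟩ := Ideal.mem_span_singleton'.mp h
    exact ⟨y, by rw [mul_comm, hy, add_sub_cancel]⟩
  have hsurj : ∀ (j : ℕ) (x : O), ∃ c y, x = s c + 2 ^ j * y := by
    intro j
    induction j with
    | zero => exact fun x => ⟨0, x, by simp [s]⟩
    | succ j ih =>
      intro x
      obtain ⟨c, y, rfl⟩ := ih x
      obtain ⟨d, z, rfl⟩ := hone y
      refine ⟨c + (2 ^ j : ℤ) • d, z, ?_⟩
      simp only [s, Pi.add_apply, Pi.smul_apply, add_smul, Finset.sum_add_distrib, smul_eq_mul,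
        mul_smul, ← Finset.smul_sum]
      rw [zsmul_eq_mul, pow_succ]
      push_cast
      ring
  have hinj : ∀ (j : ℕ) (c : Fin n → ℤ), s c ∈ Ideal.span {(2 : O) ^ j} →
      ∀ i, (2 : ℤ) ^ j ∣ c i := by
    intro j
    induction j with
    | zero => intro c _ i; simp
    | succ j ih =>
      intro c hc i
      have h0 : ∀ i, (c i : ZMod 2) = 0 := Fintype.linearIndependent_iff.mp bs.linearIndependent
        (fun i => (c i : ZMod 2)) (by
          rw [← hmk, Ideal.Quotient.eq_zero_iff_mem]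
          exact Ideal.span_singleton_le_span_singleton.mpr (dvd_pow_self _ j.succ_ne_zero) hc)
      choose d hd using fun i => (ZMod.intCast_zmod_eq_zero_iff_dvd (c i) 2).mp (h0 i)
      have hcd : s c = 2 * s d := by
        simp only [s, hd, Finset.mul_sum, zsmul_eq_mul]
        refine Finset.sum_congr rfl fun i _ => ?_
        push_cast
        ring
      obtain ⟨y, hy⟩ := Ideal.mem_span_singleton'.mp hc
      have hd' : s d ∈ Ideal.span {(2 : O) ^ j} := Ideal.mem_span_singleton'.mpr ⟨y,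
        mul_left_cancel₀ h2 (by rw [← hcd, ← hy, pow_succ]; ring)⟩
      rw [hd i, pow_succ']
      exact mul_dvd_mul_left _ (ih d hd' i)
  let J := Ideal.span {(2 : O) ^ k}
  have hkill : ∀ i, zmultiplesHom (O ⧸ J) (Ideal.Quotient.mk J (b i)) ((2 ^ k : ℕ) : ℤ) = 0 := by
    intro i
    rw [zmultiplesHom_apply, ← map_zsmul, Ideal.Quotient.eq_zero_iff_mem, zsmul_eq_mul]
    push_cast
    exact Ideal.mul_mem_right _ _ (Ideal.mem_span_singleton_self _)
  let Φ : (Fin n → ZMod (2 ^ k)) →+ O ⧸ J :=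
    ∑ i, (ZMod.lift (2 ^ k) ⟨_, hkill i⟩).comp (Pi.evalAddMonoidHom (fun _ => ZMod (2 ^ k)) i)
  have hΦ : ∀ c : Fin n → ℤ, Φ (fun i => (c i : ZMod (2 ^ k))) = Ideal.Quotient.mk J (s c) := by
    intro c
    simp only [Φ, AddMonoidHom.finsetSum_apply, AddMonoidHom.comp_apply, Pi.evalAddMonoidHom_apply,
      ZMod.lift_coe, zmultiplesHom_apply, s, map_sum, map_zsmul]
  refine ⟨n, ⟨(AddEquiv.ofBijective Φ ⟨?_, fun x => ?_⟩).symm⟩⟩
  · rw [injective_iff_map_eq_zero]
    intro a ha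
    obtain ⟨c, rfl⟩ : ∃ c : Fin n → ℤ, (fun i => (c i : ZMod (2 ^ k))) = a :=
      ⟨fun i => ((a i).val : ℤ), funext fun i => by simp⟩
    rw [hΦ, Ideal.Quotient.eq_zero_iff_mem] at ha
    exact funext fun i => (ZMod.intCast_zmod_eq_zero_iff_dvd _ _).mpr
        (by exact_mod_cast hinj k c ha i)
  · obtain ⟨x, rfl⟩ := Ideal.Quotient.mk_surjective x
    obtain ⟨c, y, rfl⟩ := hsurj k x
    refine ⟨fun i => (c i : ZMod (2 ^ k)), ?_⟩
    rw [hΦ, Ideal.Quotient.eq]
    exact Ideal.mem_span_singleton'.mpr ⟨-y, by ring⟩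

/-- **`O / 2 ^ k` is free over `ℤ / 2 ^ k`.** -/
theorem exists_addEquiv_quotient_two_pow {O : Type} [CommRing O] [IsDomain O]
    [IsDiscreteValuationRing O] [CharZero O] [Finite (ResidueField O)] (k : ℕ) :
    ∃ n : ℕ, Nonempty (O ⧸ Ideal.span {(2 : O) ^ k} ≃+ (Fin n → ZMod (2 ^ k))) := by
  obtain ⟨ϖ, hϖ⟩ := IsDiscreteValuationRing.exists_irreducible O
  obtain ⟨i, hi⟩ :=
    IsDiscreteValuationRing.associated_pow_irreducible (two_ne_zero (α := O)) hϖ
  have : Finite (O ⧸ maximalIdeal O) := ‹Finite (ResidueField O)›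
  have hf : Finite (O ⧸ maximalIdeal O ^ i) :=
    Ideal.finite_quotient_pow (IsNoetherian.noetherian _) i
  rw [hϖ.maximalIdeal_eq, Ideal.span_singleton_pow,
    ← Ideal.span_singleton_eq_span_singleton.mpr hi] at hf
  exact exists_basis_span_pow_two two_ne_zero k

end Fermat.Agent.TwoAdic.Descend
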