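import Fermat.Agent.TwoAdic.Descend.Step
import Fermat.Agent.TwoAdic.Modules.QuotAction

/-!
The descent step on the new quotients: the map to the quotient by `u` is the trace to the face.
-/

set_option autoImplicit false

noncomputable section

open IsLocalRing GaloisRep CongruenceSubgroup Fermat.Agent.DefRing Fermat.Agent.Deform
open scoped Pointwise

namespace Fermat.Agent.TwoAdic

open HeckeJ0 LevelRaising HeckeModule

attribute [local instance] ALSetup.isPrime

namespace ALSetup

variable {O : Type} [CommRing O] [IsLocalRing O] (T : ALSetup O) {A : Type} [AddCommGroup A]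
  [Module O A] {V U : Finset ℕ} {q : ℕ} [Fact q.Prime] (hS : T.CoreInS) (hV : V ⊆ T.W)
  (hqU : q ∉ U) (hUV : insert q U = V)

/-- The trace between new quotients commutes with the operators away from `S`. -/
lemma downQuot_newAct {B : Finset ℕ} (hqB : q ∉ B) (a : AwayPoly O T.S) (x : T.NewQuot A hV B) :
    T.downQuot A hS hV hqU hUV hqB (T.newAct A hV B a x)
      = T.newAct A (T.face_subset hV hUV) B a (T.downQuot A hS hV hqU hUV hqB x) := by
  obtain ⟨x, rfl⟩ := Submodule.mkQ_surjective _ x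
  exact congrArg Submodule.Quotient.mk (Subtype.ext (T.tr_smul hS hV hqU hUV a (x : T.H V A)))

variable [IsNoetherianRing O] [IsAdicComplete (maximalIdeal O) O]

/-- The trace from the new quotient at `q` and `B`, followed by a map killing the range of the
degree operator. -/
theorem exists_downMod {B : Finset ℕ} (hqB : q ∉ B) {X : Type} [AddCommGroup X] [Module O X]
    (π : T.NewQuot O (T.face_subset hV hUV) B →ₗ[O] X)
    (hπ : ∀ z, π (T.degQuot O (T.face_subset hV hUV) (hV (mem_of_insert_eq hUV)) hqU B z) = 0)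
    (hB : insert q B = V) :
    ∃ p : T.NewQuot O hV V →ₗ[O] X, ∀ x : T.signed O hV,
      p (Submodule.Quotient.mk x) = π (Submodule.Quotient.mk (T.down O hS hV hqU hUV x)) := by
  refine ⟨Submodule.liftQ _ (π ∘ₗ (T.oldSpace O (T.face_subset hV hUV) B).mkQ ∘ₗ
    T.down O hS hV hqU hUV) ?_, fun x => rfl⟩
  refine le_trans ?_ (sup_le (a := T.oldSpace O hV B)
    (b := LinearMap.range (T.oldSigned O hV (mem_of_insert_eq hUV))) (fun x hx => ?_) ?_)
  · exact le_trans (le_of_eq (congrArg _ hB.symm))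
      (T.oldSpace_insert_le hV (mem_of_insert_eq hUV) B)
  · have h0 : (T.oldSpace O (T.face_subset hV hUV) B).mkQ (T.down O hS hV hqU hUV x) = 0 :=
      (Submodule.Quotient.mk_eq_zero _).mpr (T.down_oldSpace O hS hV hqU hUV hqB hx)
    rw [LinearMap.mem_ker, LinearMap.comp_apply, LinearMap.comp_apply, h0, map_zero]
  · rintro _ ⟨w, rfl⟩
    obtain ⟨y, -, hy⟩ := T.down_oldSigned O hS hV hqU hUV (mem_of_insert_eq hUV) rfl w
    rw [LinearMap.mem_ker, LinearMap.comp_apply, LinearMap.comp_apply, Submodule.mkQ_apply]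
    refine Eq.trans ?_ (hπ (Submodule.Quotient.mk y))
    rw [T.degQuot_mk]
    exact congrArg (fun z => π (Submodule.Quotient.mk z)) (Subtype.ext hy)

end ALSetup

namespace Descend

open Pair

variable {O : Type} [CommRing O] [IsDomain O] [IsDiscreteValuationRing O]
  [IsAdicComplete (maximalIdeal O) O] [Finite (ResidueField O)] [CharP (ResidueField O) 2]
  {D : NormalData O} {E : LiftData} {Q : Finset ℕ} {C : Set (GQ × GQ)} {q : ℕ} [Fact q.Prime]
  {hA : IsResidualPair D E Q C} {hB : IsResidualPair D (E.erase q) Q C}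
  (T : ALSetup O) (hS : T.CoreInS) {V W : Finset ℕ} (hV : V ⊆ T.W) (hqW : q ∉ W)
  (hWV : insert q W = V)

/-- **Descent from `V` to `V ∖ q` on new quotients.**  `act`: the operators away from `S` are
traces of Frobenius elements and `α` is the unit root of `X ^ 2 - τ₂ X + 2`; `hker` is Mazur's
principle for the trace. -/
theorem descent_newQuot (UA : (pairFunctor hA).UniversalPoint)
    (UB : (pairFunctor hB).UniversalPoint)
    (hr : IsDihedralResidual E.D D.rbar)
    (hspan : Submodule.span (ResidueField O) (Set.range D.rbar) = ⊤)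
    (hq : q ∈ E.aux) (hqQ : q ∉ Q)
    {P : ValuationSubring (AlgebraicClosure ℚ)} (hP : P.LiesOverPrime q) {φ : GQ}
    (hφ : P.IsFrobeniusAt φ q) (htr : (D.rbar φ).trace = 0) (hne : D.rbar φ ≠ 1)
    [Module UA.R (T.NewQuot O hV V)] [IsScalarTower O UA.R (T.NewQuot O hV V)]
    [Module UB.R (T.NewQuot O (T.face_subset hV hWV) W)]
    [IsScalarTower O UB.R (T.NewQuot O (T.face_subset hV hWV) W)]
    (hihara : IharaPrimes (awayMonoid T.m) (T.level W) q 2)
    (hcube : T.CubeInjective hV V) (hcubeW : T.CubeInjective (T.face_subset hV hWV) W)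
    (S : Finset ℕ) (τ : ℕ → AwayPoly O T.S) (τ₂ : AwayPoly O T.S)
    (hτA : ∀ ℓ : ℕ, ℓ.Prime → ℓ ∉ S → ∀ (P' : ValuationSubring (AlgebraicClosure ℚ)),
      P'.LiesOverPrime ℓ → ∀ σ : GQ, P'.IsFrobeniusAt σ ℓ → ∀ m : T.NewQuot O hV V,
        Matrix.trace (uRep UA σ) • m = T.newAct O hV V (τ ℓ) m)
    (hτB : ∀ ℓ : ℕ, ℓ.Prime → ℓ ∉ S → ∀ (P' : ValuationSubring (AlgebraicClosure ℚ)),
      P'.LiesOverPrime ℓ → ∀ σ : GQ, P'.IsFrobeniusAt σ ℓ →
        ∀ m : T.NewQuot O (T.face_subset hV hWV) W,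
          Matrix.trace (uRep UB σ) • m = T.newAct O (T.face_subset hV hWV) W (τ ℓ) m)
    (hαA : ∀ m : T.NewQuot O hV V,
      T.newAct O hV V τ₂ (uRoot UA • m) = uRoot UA • uRoot UA • m + (2 : O) • m)
    (hαB : ∀ m : T.NewQuot O (T.face_subset hV hWV) W,
      T.newAct O (T.face_subset hV hWV) W τ₂ (uRoot UB • m)
        = uRoot UB • uRoot UB • m + (2 : O) • m)
    {κ : O} (hκ : IsUnit κ)
    (hu : ∀ m, traceElt UB φ • m
      = κ • T.degQuot O (T.face_subset hV hWV) (hV (ALSetup.mem_of_insert_eq hWV)) hqW W m)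
    (hinj : Function.Injective
      (T.degQuot O (T.face_subset hV hWV) (hV (ALSetup.mem_of_insert_eq hWV)) hqW W))
    (hker : ∀ x : T.signed O hV, Submodule.Quotient.mk (T.down O hS hV hqW hWV x) ∈
        LinearMap.range
          (T.degQuot O (T.face_subset hV hWV) (hV (ALSetup.mem_of_insert_eq hWV)) hqW W) →
      (Submodule.Quotient.mk x : T.NewQuot O hV V) ∈
        Scalar.inertiaIdeal (uRep UA) P • (⊤ : Submodule UA.R (T.NewQuot O hV V)))
    (hci : IsFiniteCI O UA.R) (β : Module.Basis (Fin 2) UA.R (T.NewQuot O hV V)) :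
    IsFiniteCI O UB.R ∧
      Nonempty (Module.Basis (Fin 2) UB.R (T.NewQuot O (T.face_subset hV hWV) W)) := by
  obtain ⟨_, -⟩ := T.free_newQuot hV subset_rfl hcube
  obtain ⟨_, _⟩ := T.free_newQuot (T.face_subset hV hWV) subset_rfl hcubeW
  have hunit : ∀ {E' : LiftData} {h : IsResidualPair D E' Q C}
      (U : (pairFunctor h).UniversalPoint), IsUnit (uRoot U) := fun U => by
    by_contra h
    have h1 := (toResidue_eq_zero_iff U.instIsLocalHom U.residue_surjective).mpr h
    rw [(isPair_universal U).residue_eq] at h1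
    exact one_ne_zero h1
  let M := T.NewQuot O (T.face_subset hV hWV) W
  let uM : Submodule UB.R M := traceElt UB φ • ⊤
  let π : M →ₗ[O] M ⧸ uM :=
    { toFun := Submodule.Quotient.mk
      map_add' := fun _ _ => rfl
      map_smul' := fun _ _ => rfl }
  have hrange : ∀ z, π (T.degQuot O (T.face_subset hV hWV) (hV (ALSetup.mem_of_insert_eq hWV))
      hqW W z) = 0 := fun z => by
    obtain ⟨c, hc⟩ := hκ.exists_left_inv
    refine (Submodule.Quotient.mk_eq_zero uM).mpr
      ((Submodule.mem_smul_pointwise_iff_exists _ _ _).mpr ⟨c • z, Submodule.mem_top, ?_⟩)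
    rw [hu, map_smul, smul_smul, mul_comm, hc, one_smul]
  obtain ⟨p, hp'⟩ := T.exists_downMod hS hV hqW hWV hqW π hrange hWV
  have hp : ∀ x : T.signed O hV, p (Submodule.Quotient.mk x)
      = Submodule.Quotient.mk (Submodule.Quotient.mk (T.down O hS hV hqW hWV x)) := hp'
  have hpa : ∀ (a : AwayPoly O T.S) (y : UB.R) (x : T.NewQuot O hV V),
      (∀ m : M, y • m = T.newAct O (T.face_subset hV hWV) W a m) →
      p (T.newAct O hV V a x) = y • p x := by
    intro a y x hy
    obtain ⟨x, rfl⟩ := Submodule.mkQ_surjective _ x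
    rw [Submodule.mkQ_apply, T.newAct_mk, hp, hp, ← Submodule.Quotient.mk_smul, hy]
    exact congrArg Submodule.Quotient.mk
      (T.downQuot_newAct hS hV hqW hWV hqW a (Submodule.Quotient.mk x))
  refine descent_erase UA UB hr hspan hq hqQ hP hφ htr hne hci β (fun x hx => ?_) p ?_ S ?_ ?_ ?_
  · rw [hu] at hx
    exact hinj (((hκ.smul_eq_zero).mp hx).trans (map_zero _).symm)
  · intro z
    obtain ⟨z, rfl⟩ := Submodule.mkQ_surjective _ z
    obtain ⟨z, rfl⟩ := Submodule.mkQ_surjective _ z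
    obtain ⟨x, rfl⟩ := T.down_surjective hS hV hqW hWV hihara z
    exact ⟨Submodule.Quotient.mk x, hp x⟩
  · rintro σ ⟨ℓ, hℓ, hℓS, P', hP', hσ⟩ m
    rw [hτA ℓ hℓ hℓS P' hP' σ hσ m]
    exact hpa _ _ _ fun m => hτB ℓ hℓ hℓS P' hP' σ hσ m
  · have : Module.Finite O (M ⧸ uM) := Module.Finite.of_surjective p fun z => by
      obtain ⟨z, rfl⟩ := Submodule.mkQ_surjective _ z
      obtain ⟨z, rfl⟩ := Submodule.mkQ_surjective _ z
      obtain ⟨x, rfl⟩ := T.down_surjective hS hV hqW hWV hihara z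
      exact ⟨Submodule.Quotient.mk x, hp x⟩
    exact intertwine_root (M' := M) T.two p (hunit UA) (hunit UB) (T.newAct O hV V τ₂)
      (T.newAct O (T.face_subset hV hWV) W τ₂) hαA hαB
      fun y hy x => hpa τ₂ y x fun m => (hy m).symm
  · intro m hm
    obtain ⟨x, rfl⟩ := Submodule.mkQ_surjective _ m
    refine hker x ?_
    rw [Submodule.mkQ_apply, hp, Submodule.Quotient.mk_eq_zero] at hm
    obtain ⟨z, -, hz⟩ := (Submodule.mem_smul_pointwise_iff_exists _ _ _).mp hm
    exact ⟨κ • z, by rw [map_smul, ← hu]; exact hz⟩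

end Descend

end Fermat.Agent.TwoAdic
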