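import Fermat.Agent.TwoAdic.Pair.Erase
import Fermat.Agent.TwoAdic.TSide.Surjection
import Fermat.Agent.TwoAdic.DescentStep
import Fermat.Agent.TwoAdic.Descend.Intertwine

/-!
One step of descent on universal rings of pairs: a module free of rank two over a complete
intersection at `A` gives one at `A ∖ q`, through the trace to the level without `q`.
-/

set_option autoImplicit false

noncomputable section

open IsLocalRing GaloisRep Fermat.Agent.DefRing Fermat.Agent.Deform
open scoped Pointwise

namespace Fermat.Agent.TwoAdic.Descend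

open Pair

variable {O : Type} [CommRing O] [IsDomain O] [IsDiscreteValuationRing O]
  [IsAdicComplete (maximalIdeal O) O] [Finite (ResidueField O)] [CharP (ResidueField O) 2]
  {D : NormalData O} {E : LiftData} {Q : Finset ℕ} {C : Set (GQ × GQ)} {q : ℕ}
  {hA : IsResidualPair D E Q C} {hB : IsResidualPair D (E.erase q) Q C}

/-- **Descent at one auxiliary prime.**  `p` is the trace modulo `u = tr ρ(φ) - s (q + 1)`. -/
theorem descent_erase (U : (pairFunctor hA).UniversalPoint) (V : (pairFunctor hB).UniversalPoint)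
    (hr : IsDihedralResidual E.D D.rbar)
    (hspan : Submodule.span (ResidueField O) (Set.range D.rbar) = ⊤)
    (hq : q ∈ E.aux) (hqQ : q ∉ Q)
    {P : ValuationSubring (AlgebraicClosure ℚ)} (hP : P.LiesOverPrime q) {φ : GQ}
    (hφ : P.IsFrobeniusAt φ q) (htr : (D.rbar φ).trace = 0) (hne : D.rbar φ ≠ 1)
    {MA : Type} [AddCommGroup MA] [Module U.R MA] [Module O MA] [IsScalarTower O U.R MA]
    [Module.Finite O MA]
    {MB : Type} [AddCommGroup MB] [Module V.R MB] [Module O MB] [IsScalarTower O V.R MB]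
    [Module.Finite O MB] [Module.Free O MB]
    (hci : IsFiniteCI O U.R) (β : Module.Basis (Fin 2) U.R MA)
    (hu : ∀ x : MB, traceElt V φ • x = 0 → x = 0)
    (p : MA →ₗ[O] MB ⧸ traceElt V φ • (⊤ : Submodule V.R MB)) (hp : Function.Surjective p)
    (S : Finset ℕ)
    (hpσ : ∀ σ ∈ frobeniusSet S, ∀ m,
      p (Matrix.trace (uRep U σ) • m) = Matrix.trace (uRep V σ) • p m)
    (hpα : ∀ m, p (uRoot U • m) = uRoot V • p m)
    (hker : ∀ m, p m = 0 →
      m ∈ Scalar.inertiaIdeal (uRep U) P • (⊤ : Submodule U.R MA)) :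
    IsFiniteCI O V.R ∧ Nonempty (Module.Basis (Fin 2) V.R MB) := by
  obtain ⟨b, -, hbI, hum, e, heN, heα⟩ := exists_eraseEquiv U V hr hq hqQ hP hφ htr hne
  have : IsLocalHom (algebraMap O V.R) := V.instIsLocalHom
  have : Module.Finite O (MB ⧸ traceElt V φ • (⊤ : Submodule V.R MB)) :=
    Module.Finite.of_surjective (M := MA) p hp
  have hkill : ∀ (c : V.R) (z : MB ⧸ traceElt V φ • (⊤ : Submodule V.R MB)),
      (c * traceElt V φ) • z = 0 := fun c z => by
    obtain ⟨z, rfl⟩ := Submodule.mkQ_surjective (traceElt V φ • (⊤ : Submodule V.R MB)) z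
    rw [mul_comm, mul_smul, ← map_smul, ← map_smul, Submodule.mkQ_apply,
      Submodule.Quotient.mk_eq_zero]
    exact Submodule.smul_mem_pointwise_smul _ _ _ Submodule.mem_top
  let g₁ : V.R ⧸ Ideal.span {traceElt V φ} →ₐ[O]
      Module.End O (MB ⧸ traceElt V φ • (⊤ : Submodule V.R MB)) :=
    Ideal.Quotient.liftₐ _ (Algebra.lsmul O O (MB ⧸ traceElt V φ • (⊤ : Submodule V.R MB)))
      fun x hx => by
        obtain ⟨c, rfl⟩ := Ideal.mem_span_singleton'.mp hx
        exact LinearMap.ext fun z => hkill c z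
  let g : U.R →ₐ[O] Module.End O (MB ⧸ traceElt V φ • (⊤ : Submodule V.R MB)) :=
    g₁.comp (e.toAlgHom.comp (Ideal.Quotient.mkₐ O _))
  have hg : ∀ (x : U.R) (y : V.R), e (Ideal.Quotient.mk _ x) = Ideal.Quotient.mk _ y →
      ∀ z, g x z = y • z := fun x y h z => by
    show g₁ (e (Ideal.Quotient.mk _ x)) z = _
    rw [h]
    rfl
  have htrace : ∀ σ, e (Ideal.Quotient.mk _ (Matrix.trace (uRep U σ))) =
      Ideal.Quotient.mk _ (Matrix.trace (uRep V σ)) := fun σ => by
    rw [Matrix.trace_fin_two, Matrix.trace_fin_two, map_add, map_add, map_add, heN, heN]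
  have hcompat : ∀ (x : U.R) (m : MA), p (x • m) = g x (p m) :=
    intertwine_of_dense (Algebra.lsmul O O MA) g p _ (TSide.adjoin_root_trace_sub_mem U hspan S)
      fun x hx m => by
        rcases hx with ⟨σ, hσ, rfl⟩ | rfl
        · rw [hg _ _ (htrace σ)]
          exact hpσ σ hσ m
        · rw [hg _ _ heα]
          exact hpα m
  have hcompat' : ∀ (x : U.R) (y : V.R), e (Ideal.Quotient.mk _ x) = Ideal.Quotient.mk _ y →
      ∀ m, p.toAddMonoidHom (x • m) = y • p.toAddMonoidHom m :=
    fun x y h m => (hcompat x m).trans (hg x y h _)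
  refine descent_step (R := V.R) (R' := U.R) (C' := MA) (C := MB) hci (u := traceElt V φ) hum b e β
      hu p.toAddMonoidHom hp hcompat'
    fun m hm => ?_
  have h1 := hker m hm
  rw [hbI, Submodule.ideal_span_singleton_smul] at h1
  exact h1

end Fermat.Agent.TwoAdic.Descend
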